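/-
S48 (Deligne–Serre), seat ALG (owner helper49), abstract core.

A linear system with coefficients in a subfield `K ⊆ ℂ` (any index set of equations, finitely
many unknowns) which has a nonzero complex solution has a nonzero solution in `K`.
-/
import Mathlib

set_option autoImplicit false

noncomputable section

namespace Fermat.Agent.S48

open scoped BigOperators

section Core

variable {ι J : Type} [Fintype ι] [DecidableEq ι] (K : IntermediateField ℚ ℂ)

/-- the equation `y ↦ ∑ i, r i * y i` as a linear form. -/
def algRow (r : ι → K) : Module.Dual K (ι → K) where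
  toFun y := ∑ i, r i * y i
  map_add' y z := by
    simp only [Pi.add_apply, mul_add, Finset.sum_add_distrib]
  map_smul' k y := by
    simp only [Pi.smul_apply, smul_eq_mul, RingHom.id_apply, Finset.mul_sum]
    exact Finset.sum_congr rfl fun i _ => by ring

@[simp] theorem algRow_apply (r : ι → K) (y : ι → K) : algRow K r y = ∑ i, r i * y i := rfl

theorem algRow_single (r : ι → K) (i : ι) : algRow K r (Pi.single i 1) = r i := by
  rw [algRow_apply, Finset.sum_eq_single i]
  · rw [Pi.single_eq_same, mul_one]
  · intro j _ hj
    rw [Pi.single_eq_of_ne hj, mul_zero]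
  · intro h
    exact absurd (Finset.mem_univ i) h

/-- evaluation of a linear form on `K^ι` at a complex vector. -/
def algEval (x : ι → ℂ) : Module.Dual K (ι → K) →ₗ[K] ℂ where
  toFun φ := ∑ i, ((φ (Pi.single i 1) : K) : ℂ) * x i
  map_add' φ ψ := by
    simp only [LinearMap.add_apply, IntermediateField.coe_add, add_mul, Finset.sum_add_distrib]
  map_smul' k φ := by
    simp only [LinearMap.smul_apply, smul_eq_mul, IntermediateField.coe_mul, RingHom.id_apply,
      Finset.smul_sum]
    refine Finset.sum_congr rfl fun i _ => ?_
    rw [IntermediateField.smul_def, smul_eq_mul, mul_assoc]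

theorem algEval_apply (x : ι → ℂ) (φ : Module.Dual K (ι → K)) :
    algEval K x φ = ∑ i, ((φ (Pi.single i 1) : K) : ℂ) * x i := rfl

theorem algEval_row (x : ι → ℂ) (r : ι → K) :
    algEval K x (algRow K r) = ∑ i, ((r i : K) : ℂ) * x i := by
  rw [algEval_apply]
  exact Finset.sum_congr rfl fun i _ => by rw [algRow_single]

theorem algEval_proj (x : ι → ℂ) (i : ι) :
    algEval K x (LinearMap.proj i) = x i := by
  rw [algEval_apply, Finset.sum_eq_single i]
  · rw [LinearMap.proj_apply, Pi.single_eq_same, IntermediateField.coe_one, one_mul]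
  · intro j _ hj
    rw [LinearMap.proj_apply, Pi.single_eq_of_ne hj.symm, IntermediateField.coe_zero, zero_mul]
  · intro h
    exact absurd (Finset.mem_univ i) h

/-- **rational solutions**: a system of linear equations with coefficients in `K` which has a
nonzero complex solution has a nonzero solution in `K`. -/
theorem exists_rational_solution (r : J → ι → K) (x : ι → ℂ) (hx : x ≠ 0)
    (hsol : ∀ j, ∑ i, ((r j i : K) : ℂ) * x i = 0) :
    ∃ y : ι → K, y ≠ 0 ∧ ∀ j, ∑ i, r j i * y i = 0 := by
  by_contra hcon
  push Not at hcon
  set Φ : Subspace K (Module.Dual K (ι → K)) :=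
    Submodule.span K (Set.range fun j => algRow K (r j)) with hΦ
  have hco : Φ.dualCoannihilator = ⊥ := by
    rw [eq_bot_iff]
    intro y hy
    rw [Submodule.mem_dualCoannihilator] at hy
    rw [Submodule.mem_bot]
    by_contra hy0
    obtain ⟨j, hj⟩ := hcon y hy0
    exact hj (hy _ (Submodule.subset_span ⟨j, rfl⟩))
  have htop : Φ = ⊤ := by
    have h := Subspace.dualCoannihilator_dualAnnihilator_eq (W := Φ)
    rw [hco, Submodule.dualAnnihilator_bot] at h
    exact h.symm
  have hker : Φ ≤ LinearMap.ker (algEval K x) := by
    rw [hΦ, Submodule.span_le]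
    rintro _ ⟨j, rfl⟩
    rw [SetLike.mem_coe, LinearMap.mem_ker, algEval_row]
    exact hsol j
  apply hx
  funext i
  have hi : (LinearMap.proj i : Module.Dual K (ι → K)) ∈ Φ := by
    rw [htop]
    exact Submodule.mem_top
  have := hker hi
  rw [LinearMap.mem_ker, algEval_proj] at this
  exact this

end Core

end Fermat.Agent.S48
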