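/-
S48 (Deligne–Serre), seat ALG (owner helper49): the algebraic eigenvector.

`alg_of : IntStructStatement → IntegralStatement → AlgStatement`.
`f = ∑ xᵢ gᵢ` with `gᵢ` linearly independent of integer `q`-coefficients; the Hecke relations
with the eigenvalues `a_p(f)` are a linear system in the `xᵢ` with coefficients in the number
field `K = K₀(values of ε)`; it has the nonzero complex solution `x`, hence a nonzero solution in
`K` (`exists_rational_solution`), which is made integral by a common denominator.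
-/
import Mathlib
import Fermat.Agent.S48.Defs
import Fermat.Agent.S48.Conj
import Fermat.Agent.S48.AlgCore
import Fermat.Prelude.Def_FLTPrelim_Modularity

set_option autoImplicit false

noncomputable section

namespace Fermat.Agent.S48

open CongruenceSubgroup ModularFormClass UpperHalfPlane
open scoped BigOperators

/-- the `q`-expansion principle on `S₁(Γ₁(N))`. -/
theorem eq_zero_of_qCoeff_g1 {N : ℕ} (f : CuspForm (Gamma1 N) 1)
    (h : ∀ n, qCoeff (⇑f) n = 0) : f = 0 := by
  have hq : qExpansion 1 (⇑f) = 0 := by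
    ext n
    rw [map_zero]
    exact h n
  have hcusp : Fact (IsCusp OnePoint.infty (Gamma1 N : Subgroup (GL (Fin 2) ℝ))) :=
    ⟨Subgroup.isCusp_of_mem_strictPeriods one_pos (one_mem_strictPeriods_Gamma1_conj N)⟩
  have := (qExpansion_eq_zero_iff (h := 1) one_pos
    (SlashInvariantFormClass.periodic_comp_ofComplex f (one_mem_strictPeriods_Gamma1_conj N))
    (ModularFormClass.holo f) (ModularFormClass.bdd_at_infty f)).mp hq
  exact DFunLike.coe_injective this

/-- the values of a Dirichlet character are algebraic. -/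
theorem isIntegral_dirichlet_value {N : ℕ} [NeZero N] (ε : DirichletCharacter ℂ N)
    (a : ZMod N) : IsIntegral ℚ (ε a) := by
  by_cases ha : IsUnit a
  · obtain ⟨u, rfl⟩ := ha
    have h1 : (ε (u : ZMod N)) ^ (Nat.totient N) = 1 := by
      rw [← map_pow, ← Units.val_pow_eq_pow_val, ZMod.pow_totient, Units.val_one, map_one]
    have hpos : 0 < Nat.totient N := Nat.totient_pos.mpr (NeZero.pos N)
    exact IsIntegral.of_pow hpos (h1 ▸ isIntegral_one)
  · rw [MulChar.map_nonunit ε ha]
    exact isIntegral_zero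

/-- **ALG**: the algebraic eigenvector, from the integral structure and the number field of the
eigenvalues. -/
theorem alg_of (h1 : IntStructStatement) (h2 : IntegralStatement) : AlgStatement := by
  classical
  intro N _ ε f hf
  obtain ⟨-, K₀, hK₀, haK₀⟩ := h2 N ε f hf
  -- the number field `K`
  haveI : Finite (Set.range ε) := (Set.finite_range ε).to_subtype
  haveI hK₁ : FiniteDimensional ℚ (IntermediateField.adjoin ℚ (Set.range ε)) :=
    IntermediateField.finiteDimensional_adjoin fun x hx => by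
      obtain ⟨a, rfl⟩ := hx
      exact isIntegral_dirichlet_value ε a
  obtain ⟨K, hKfd, hK₀K, hεK⟩ : ∃ K : IntermediateField ℚ ℂ, FiniteDimensional ℚ K ∧
      K₀ ≤ K ∧ ∀ a : ZMod N, ε a ∈ K :=
    ⟨K₀ ⊔ IntermediateField.adjoin ℚ (Set.range ε), IntermediateField.finiteDimensional_sup K₀ _,
      le_sup_left, fun a => (le_sup_right : _ ≤ K₀ ⊔ IntermediateField.adjoin ℚ (Set.range ε))
        (IntermediateField.subset_adjoin ℚ _ ⟨a, rfl⟩)⟩
  have haK : ∀ p : ℕ, p.Prime → ¬ p ∣ N → qCoeff (⇑f) p ∈ K := fun p hp hpN =>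
    hK₀K (haK₀ p hp hpN)
  -- a finite linearly independent family of integral forms spanning `f`
  obtain ⟨T, hTS, hfT⟩ := Submodule.mem_span_finite_of_mem_span (h1 N f)
  obtain ⟨b, hbT, hbspan, hbli⟩ := exists_linearIndependent ℂ (T : Set (CuspForm (Gamma1 N) 1))
  have hbfin : b.Finite := T.finite_toSet.subset hbT
  haveI : Fintype b := hbfin.fintype
  have hfb : f ∈ Submodule.span ℂ (Set.range ((↑) : b → CuspForm (Gamma1 N) 1)) := by
    rw [Subtype.range_coe, hbspan]
    exact hfT
  obtain ⟨x, hx⟩ := (Submodule.mem_span_range_iff_exists_fun ℂ).mp hfb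
  have hint : ∀ (i : b) (n : ℕ), ∃ m : ℤ,
      qCoeff (⇑(i : CuspForm (Gamma1 N) 1)) n = (m : ℂ) := fun i n => hTS (hbT i.2) n
  choose c hc using hint
  have hqsum : ∀ (w : b → ℂ) (n : ℕ),
      qCoeff (⇑(∑ i, w i • (i : CuspForm (Gamma1 N) 1))) n = ∑ i, w i * (c i n : ℂ) := by
    intro w n
    have h := map_sum (qCoeffLin N n) (fun i : b => w i • (i : CuspForm (Gamma1 N) 1))
      Finset.univ
    rw [qCoeffLin_apply] at h
    rw [h]
    refine Finset.sum_congr rfl fun i _ => ?_
    rw [map_smul, qCoeffLin_apply, smul_eq_mul, hc]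
  have hfa : ∀ n : ℕ, qCoeff (⇑f) n = ∑ i, x i * (c i n : ℂ) := by
    intro n
    rw [← hx]
    exact hqsum x n
  -- `x ≠ 0`
  have hx0 : x ≠ 0 := by
    intro h0
    have h1' := hf.1
    simp only at h1'
    rw [hfa 1, h0] at h1'
    simp at h1'
  -- the linear system
  set r : ℕ × ℕ → b → K := fun j i =>
    if h : j.1.Prime ∧ ¬ j.1 ∣ N then
      ((c i (j.1 * j.2) : ℤ) : K)
        + (⟨ε (j.1 : ZMod N), hεK _⟩ : K) * (if j.1 ∣ j.2 then ((c i (j.2 / j.1) : ℤ) : K) else 0)
        - (⟨qCoeff (⇑f) j.1, haK j.1 h.1 h.2⟩ : K) * ((c i j.2 : ℤ) : K)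
    else 0 with hr
  have hrgood : ∀ (p n : ℕ) (hp : p.Prime) (hpN : ¬ p ∣ N) (i : b),
      ((r (p, n) i : K) : ℂ) = (c i (p * n) : ℂ)
        + ε (p : ZMod N) * (if p ∣ n then (c i (n / p) : ℂ) else 0)
        - qCoeff (⇑f) p * (c i n : ℂ) := by
    intro p n hp hpN i
    have h : (p, n).1.Prime ∧ ¬ (p, n).1 ∣ N := ⟨hp, hpN⟩
    simp only [hr, dif_pos h]
    by_cases hpn : p ∣ n
    · simp only [if_pos hpn]
      push_cast
      rfl
    · simp only [if_neg hpn]
      push_cast
      rfl
  have hrsum : ∀ (v : b → ℂ) (p n : ℕ), p.Prime → ¬ p ∣ N →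
      ∑ i, ((r (p, n) i : K) : ℂ) * v i
        = (∑ i, v i * (c i (p * n) : ℂ))
          + ε (p : ZMod N) * (if p ∣ n then ∑ i, v i * (c i (n / p) : ℂ) else 0)
          - qCoeff (⇑f) p * ∑ i, v i * (c i n : ℂ) := by
    intro v p n hp hpN
    by_cases hpn : p ∣ n
    · simp only [if_pos hpn, Finset.mul_sum]
      rw [← Finset.sum_add_distrib, ← Finset.sum_sub_distrib]
      refine Finset.sum_congr rfl fun i _ => ?_
      rw [hrgood p n hp hpN i, if_pos hpn]
      ring
    · simp only [if_neg hpn, Finset.mul_sum, mul_zero, add_zero]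
      rw [← Finset.sum_sub_distrib]
      refine Finset.sum_congr rfl fun i _ => ?_
      rw [hrgood p n hp hpN i, if_neg hpn]
      ring
  have hsol : ∀ j, ∑ i, ((r j i : K) : ℂ) * x i = 0 := by
    rintro ⟨p, n⟩
    by_cases h : p.Prime ∧ ¬ p ∣ N
    · have hrel := hf.2 p h.1 h.2 n
      simp only at hrel
      rw [hrsum x p n h.1 h.2, ← hfa (p * n), ← hfa n]
      by_cases hpn : p ∣ n
      · rw [if_pos hpn, ← hfa (n / p)]
        rw [if_pos hpn] at hrel
        rw [hrel, sub_self]
      · rw [if_neg hpn]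
        rw [if_neg hpn] at hrel
        rw [hrel, sub_self]
    · refine Finset.sum_eq_zero fun i _ => ?_
      have : r (p, n) i = 0 := by
        simp only [hr]
        rw [dif_neg h]
      rw [this, IntermediateField.coe_zero, zero_mul]
  obtain ⟨y, hy0, hy⟩ := exists_rational_solution K r x hx0 hsol
  -- a common denominator
  haveI : Algebra.IsAlgebraic ℤ ℚ := IsLocalization.isAlgebraic ℚ (nonZeroDivisors ℤ)
  haveI : Algebra.IsAlgebraic ℚ K := Algebra.IsAlgebraic.of_finite ℚ K
  haveI : Algebra.IsAlgebraic ℤ K := Algebra.IsAlgebraic.trans ℤ ℚ K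
  obtain ⟨d, hd0, hdint⟩ := Algebra.IsAlgebraic.exists_integral_multiples ℤ
    (Finset.univ.image y)
  have hdy : ∀ i : b, IsIntegral ℤ (((d • y i : K) : K) : ℂ) := by
    intro i
    have h := hdint (y i) (Finset.mem_image_of_mem y (Finset.mem_univ i))
    exact h.map (IsScalarTower.toAlgHom ℤ K ℂ)
  set w : b → ℂ := fun i => ((d • y i : K) : ℂ) with hw
  have hcint : ∀ n : ℕ, IsIntegral ℤ (∑ i, w i * (c i n : ℂ)) := fun n =>
    IsIntegral.sum _ fun i _ => (hdy i).mul isIntegral_algebraMap
  have hwK : ∀ n : ℕ, (∑ i, w i * (c i n : ℂ)) ∈ K := fun n =>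
    sum_mem fun i _ => mul_mem (d • y i : K).2 (intCast_mem K _)
  have hw0 : w ≠ 0 := by
    intro h0
    apply hy0
    funext i
    have hi : w i = 0 := congrFun h0 i
    have hi' : (d • y i : K) = 0 := by
      apply Subtype.ext
      exact hi
    rcases smul_eq_zero.mp hi' with h | h
    · exact absurd h hd0
    · exact h
  refine ⟨∑ i, w i • (i : CuspForm (Gamma1 N) 1),
    fun n => ⟨∑ i, w i * (c i n : ℂ), hcint n⟩, fun n => (hqsum w n).symm, ?_, ⟨K, hKfd, hwK⟩, ?_⟩
  · -- nonzero
    by_contra hall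
    push Not at hall
    have hg0 : ∑ i, w i • (i : CuspForm (Gamma1 N) 1) = 0 := by
      apply eq_zero_of_qCoeff_g1
      intro n
      rw [hqsum w n]
      exact congrArg Subtype.val (hall n)
    have := Fintype.linearIndependent_iff.mp hbli w hg0
    exact hw0 (funext this)
  · -- the Hecke relations
    intro p hp hpN n
    have hyj := hy (p, n)
    have hyC : ∑ i, ((r (p, n) i : K) : ℂ) * w i = 0 := by
      have h := congrArg (fun z : K => ((d • z : K) : ℂ)) hyj
      simp only [smul_zero, IntermediateField.coe_zero] at h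
      rw [← h, Finset.smul_sum]
      push_cast
      refine Finset.sum_congr rfl fun i _ => ?_
      simp only [hw, zsmul_eq_mul]
      push_cast
      ring
    show (∑ i, w i * (c i (p * n) : ℂ)) + ε (p : ZMod N) *
        (if p ∣ n then (∑ i, w i * (c i (n / p) : ℂ)) else 0)
      = qCoeff (⇑f) p * ∑ i, w i * (c i n : ℂ)
    have e2 := hrsum w p n hp hpN
    rw [hyC] at e2
    exact sub_eq_zero.mp e2.symm

end Fermat.Agent.S48
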