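import Fermat.Agent.S48.Defs

/-!
# S48 (Deligne–Serre): top-level assembly from the interface statements

`dsResult_of : ComplexRepStatement → IrredStatement → (the statement of S48)`.
`Fermat/Agent/S48.lean` will be `dsResult_of complexRep irred` once the closure is sorry-free.
-/

set_option autoImplicit false

open CongruenceSubgroup

namespace Fermat.Agent.S48

local notation "Γℚ" => (AlgebraicClosure ℚ ≃ₐ[ℚ] AlgebraicClosure ℚ)

theorem dsConclusion_of (hC : ComplexRepStatement) (hI : IrredStatement)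
    (N : ℕ) [NeZero N] (ε : DirichletCharacter ℂ N) (f : CuspForm (Gamma1 N) 1)
    (h : HeckeRel N ε (fun n => ModularFormClass.qCoeff f n)) :
    DSConclusion N ε (fun n => ModularFormClass.qCoeff f n) := by
  obtain ⟨ρ, hfin, hρ⟩ := hC N ε f h
  refine ⟨ρ, hfin, hI N ε f h ρ hfin (fun p hp hpN A hA σ hσ => ((hρ p hp hpN A hA).2 σ hσ).1),
    hρ⟩

/-- The statement of S48 from the two endgame statements. -/
theorem dsResult_of (hC : ComplexRepStatement) (hI : IrredStatement)
    (N : ℕ) [NeZero N] (ε : DirichletCharacter ℂ N) (f : CuspForm (Gamma1 N) 1)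
    (hf₁ : ModularFormClass.qCoeff f 1 = 1)
    (hT : ∀ p : ℕ, p.Prime → ¬ p ∣ N → ∀ n : ℕ,
        ModularFormClass.qCoeff f (p * n) +
            ε (p : ZMod N) * (if p ∣ n then ModularFormClass.qCoeff f (n / p) else 0) =
          ModularFormClass.qCoeff f p * ModularFormClass.qCoeff f n) :
    ∃ ρ : Γℚ →* GL (Fin 2) ℂ, GaloisFactorsThroughFiniteLevel ρ ∧
      (Deformation.matrixRepresentation ρ).IsIrreducible ∧
      ∀ p : ℕ, p.Prime → ¬ p ∣ N →
        ∀ A : ValuationSubring (AlgebraicClosure ℚ), A.LiesOverPrime p →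
          (∀ σ ∈ A.inertiaSubgroupIn ℚ, ρ σ = 1) ∧
          ∀ σ : Γℚ, A.IsFrobeniusAt σ p →
            ((ρ σ : GL (Fin 2) ℂ) : Matrix (Fin 2) (Fin 2) ℂ).trace = ModularFormClass.qCoeff f p ∧
            ((ρ σ : GL (Fin 2) ℂ) : Matrix (Fin 2) (Fin 2) ℂ).det = ε (p : ZMod N) :=
  dsConclusion_of hC hI N ε f ⟨hf₁, hT⟩

end Fermat.Agent.S48
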