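/-
S48 (Deligne–Serre), leaf "bounded image" (DS, Prop. 7.2), helper61.

`G` a finite subgroup of `GL₂(F)`, `F` any field.  If the trace form `(x, y) ↦ tr (x y)` is
nondegenerate on the linear span `B` of `G` in `M₂(F)` (true as soon as `G` acts semisimply on
`F²` and `2 ≠ 0`), then an element `g ∈ G` is determined by the traces `tr (g gᵢ)`, `gᵢ` a basis of
`B` contained in `G`.  Hence, if all elements of `G` outside a set `Bad` have their trace in a
finite set `Y`:
      `|G| ≤ 4 |Bad ∩ G| + |Y| ^ 4`.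
No classification of the subgroups of `GL₂(𝔽_ℓ)` is used.

* `TraceNondeg G`                : the trace form is nondegenerate on `span G`;
* `card_le_of_traceNondeg`       : the counting bound;
* `card_le_two_mul`              : `8 |Bad ∩ G| ≤ |G|`, `|Y| ≤ M` ⟹ `|G| ≤ 2 M ^ 4`;
* `traceNondeg_of_semisimple`    : `2 ≠ 0` and every `G`-stable line has a `G`-stable complement
                                   ⟹ `TraceNondeg G`;
* `traceNondeg_of_irreducible`   : `2 ≠ 0` and no `G`-stable line ⟹ `TraceNondeg G`;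
* `exists_semisimplification`    : every `ρ : Γ →* GL₂(F)` has a companion `ρ'` with the same
                                   traces and determinants, trivial on `ker ρ`, whose image has
                                   nondegenerate trace form;
* `card_le_of_good_subset`       : the form of DS 7.2 with a good subset `H` (`7/8` of `G`).
-/
import Mathlib

set_option autoImplicit false
set_option linter.unusedSectionVars false
set_option linter.style.haveILetI false

open Matrix

namespace Fermat.Agent.S48BI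

variable {F : Type*} [Field F]

/-- the set of matrices of a subgroup of `GL₂(F)`. -/
def matSet (G : Subgroup (GL (Fin 2) F)) : Set (Matrix (Fin 2) (Fin 2) F) :=
  {x | ∃ g ∈ G, ((g : GL (Fin 2) F) : Matrix (Fin 2) (Fin 2) F) = x}

/-- the linear span of `G` in `M₂(F)`. -/
def spanMat (G : Subgroup (GL (Fin 2) F)) : Submodule F (Matrix (Fin 2) (Fin 2) F) :=
  Submodule.span F (matSet G)

theorem coe_mem_matSet {G : Subgroup (GL (Fin 2) F)} {g : GL (Fin 2) F} (hg : g ∈ G) :
    ((g : GL (Fin 2) F) : Matrix (Fin 2) (Fin 2) F) ∈ matSet G := ⟨g, hg, rfl⟩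

theorem coe_mem_spanMat {G : Subgroup (GL (Fin 2) F)} {g : GL (Fin 2) F} (hg : g ∈ G) :
    ((g : GL (Fin 2) F) : Matrix (Fin 2) (Fin 2) F) ∈ spanMat G :=
  Submodule.subset_span (coe_mem_matSet hg)

theorem one_mem_spanMat (G : Subgroup (GL (Fin 2) F)) :
    (1 : Matrix (Fin 2) (Fin 2) F) ∈ spanMat G := by
  have := coe_mem_spanMat (G := G) G.one_mem
  simpa using this

/-- `span G` is stable under right multiplication by elements of `G`. -/
theorem mul_coe_mem_spanMat {G : Subgroup (GL (Fin 2) F)} {x : Matrix (Fin 2) (Fin 2) F}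
    (hx : x ∈ spanMat G) {g : GL (Fin 2) F} (hg : g ∈ G) :
    x * ((g : GL (Fin 2) F) : Matrix (Fin 2) (Fin 2) F) ∈ spanMat G := by
  unfold spanMat at hx ⊢
  induction hx using Submodule.span_induction with
  | mem y hy =>
    obtain ⟨h, hh, rfl⟩ := hy
    refine Submodule.subset_span ⟨h * g, G.mul_mem hh hg, ?_⟩
    simp
  | zero => rw [zero_mul]; exact zero_mem _
  | add y z _ _ hy hz => rw [add_mul]; exact add_mem hy hz
  | smul c y _ hy => rw [smul_mul_assoc]; exact Submodule.smul_mem _ _ hy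

/-- `span G` is stable under left multiplication by elements of `G`. -/
theorem coe_mul_mem_spanMat {G : Subgroup (GL (Fin 2) F)} {x : Matrix (Fin 2) (Fin 2) F}
    (hx : x ∈ spanMat G) {g : GL (Fin 2) F} (hg : g ∈ G) :
    ((g : GL (Fin 2) F) : Matrix (Fin 2) (Fin 2) F) * x ∈ spanMat G := by
  unfold spanMat at hx ⊢
  induction hx using Submodule.span_induction with
  | mem y hy =>
    obtain ⟨h, hh, rfl⟩ := hy
    refine Submodule.subset_span ⟨g * h, G.mul_mem hg hh, ?_⟩
    simp
  | zero => rw [mul_zero]; exact zero_mem _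
  | add y z _ _ hy hz => rw [mul_add]; exact add_mem hy hz
  | smul c y _ hy => rw [mul_smul_comm]; exact Submodule.smul_mem _ _ hy

/-- `span G` is a subalgebra. -/
theorem mul_mem_spanMat {G : Subgroup (GL (Fin 2) F)} {x y : Matrix (Fin 2) (Fin 2) F}
    (hx : x ∈ spanMat G) (hy : y ∈ spanMat G) : x * y ∈ spanMat G := by
  unfold spanMat at hy
  induction hy using Submodule.span_induction with
  | mem z hz =>
    obtain ⟨h, hh, rfl⟩ := hz
    exact mul_coe_mem_spanMat hx hh
  | zero => rw [mul_zero]; exact zero_mem _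
  | add y z _ _ hy hz => rw [mul_add]; exact add_mem hy hz
  | smul c y _ hy => rw [mul_smul_comm]; exact Submodule.smul_mem _ _ hy

/-- the trace form `(x, y) ↦ tr (x y)` is nondegenerate on the span of `G`. -/
def TraceNondeg (G : Subgroup (GL (Fin 2) F)) : Prop :=
  ∀ x ∈ spanMat G,
    (∀ g ∈ G, trace (x * ((g : GL (Fin 2) F) : Matrix (Fin 2) (Fin 2) F)) = 0) → x = 0

/-- orthogonality to `G` is orthogonality to the span. -/
theorem trace_mul_eq_zero_of_forall {G : Subgroup (GL (Fin 2) F)}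
    {x : Matrix (Fin 2) (Fin 2) F}
    (h : ∀ g ∈ G, trace (x * ((g : GL (Fin 2) F) : Matrix (Fin 2) (Fin 2) F)) = 0)
    {y : Matrix (Fin 2) (Fin 2) F} (hy : y ∈ spanMat G) : trace (x * y) = 0 := by
  unfold spanMat at hy
  induction hy using Submodule.span_induction with
  | mem z hz =>
    obtain ⟨g, hg, rfl⟩ := hz
    exact h g hg
  | zero => simp
  | add y z _ _ hy hz => rw [mul_add, trace_add, hy, hz, add_zero]
  | smul c y _ hy => rw [mul_smul_comm, trace_smul, hy, smul_zero]

/-! ### the counting bound -/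

section Count

variable (G : Subgroup (GL (Fin 2) F)) [Finite G]

/-- an element of `G` is determined by its traces against a spanning subset of `G`. -/
theorem eq_of_trace_eq (hnd : TraceNondeg G) {b : Set (Matrix (Fin 2) (Fin 2) F)}
    (hbspan : Submodule.span F b = Submodule.span F (matSet G)) {g g' : GL (Fin 2) F}
    (hg : g ∈ G) (hg' : g' ∈ G)
    (h : ∀ β ∈ b, trace ((g : Matrix (Fin 2) (Fin 2) F) * β)
      = trace ((g' : Matrix (Fin 2) (Fin 2) F) * β)) : g = g' := by
  have hx : (g : Matrix (Fin 2) (Fin 2) F) - (g' : Matrix (Fin 2) (Fin 2) F) ∈ spanMat G :=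
    sub_mem (coe_mem_spanMat hg) (coe_mem_spanMat hg')
  have h0 : ∀ y ∈ Submodule.span F b,
      trace (((g : Matrix (Fin 2) (Fin 2) F) - (g' : Matrix (Fin 2) (Fin 2) F)) * y) = 0 := by
    intro y hy
    induction hy using Submodule.span_induction with
    | mem z hz => rw [sub_mul, trace_sub, h z hz, sub_self]
    | zero => simp
    | add y z _ _ hy hz => rw [mul_add, trace_add, hy, hz, add_zero]
    | smul c y _ hy => rw [mul_smul_comm, trace_smul, hy, smul_zero]
  have h1 := hnd _ hx fun k hk => h0 _ (by rw [hbspan]; exact Submodule.subset_span (coe_mem_matSet hk))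
  exact Units.ext (sub_eq_zero.mp h1)

open Classical in
/-- **Bounded image.**  If the trace form is nondegenerate on `span G` and all elements of `G`
outside `Bad` have their trace in the finite set `Y`, then `|G| ≤ 4 |Bad ∩ G| + |Y| ^ 4`. -/
theorem card_le_of_traceNondeg (hnd : TraceNondeg G) (Bad : Set (GL (Fin 2) F)) (Y : Finset F)
    (hY : ∀ g ∈ G, g ∉ Bad → trace ((g : GL (Fin 2) F) : Matrix (Fin 2) (Fin 2) F) ∈ Y) :
    Nat.card G ≤ 4 * Nat.card {g : G // (g : GL (Fin 2) F) ∈ Bad} + Y.card ^ 4 := by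
  haveI : Fintype G := Fintype.ofFinite G
  obtain ⟨b, hbsub, hbspan, hbli⟩ := exists_linearIndependent F (matSet G)
  have hbfin : b.Finite := hbli.setFinite
  haveI : Fintype b := hbfin.fintype
  have hcard : Fintype.card b ≤ 4 := by
    have h1 : Fintype.card b ≤ Module.finrank F (Matrix (Fin 2) (Fin 2) F) :=
      hbli.fintype_card_le_finrank
    have h2 : Module.finrank F (Matrix (Fin 2) (Fin 2) F) = 4 := by
      rw [Module.finrank_matrix]
      simp
    rw [h2] at h1
    exact h1
  -- a lift of the basis to `G`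
  have hex : ∀ β : b, ∃ γ : G, ((γ : GL (Fin 2) F) : Matrix (Fin 2) (Fin 2) F) = β := by
    intro β
    obtain ⟨g, hg, hgβ⟩ := hbsub β.2
    exact ⟨⟨g, hg⟩, hgβ⟩
  choose γ hγ using hex
  -- `b` is not empty
  have hbne : 1 ≤ Fintype.card b := by
    rw [Nat.one_le_iff_ne_zero, Ne, Fintype.card_eq_zero_iff]
    intro hempty
    have hb0 : b = ∅ := Set.isEmpty_coe_sort.mp hempty
    have h1 := one_mem_spanMat G
    unfold spanMat at h1
    rw [← hbspan, hb0, Submodule.span_empty, Submodule.mem_bot] at h1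
    exact one_ne_zero h1
  -- the good elements
  set Gp : Finset G := Finset.univ.filter fun g => ∀ β : b, ((g * γ β : G) : GL (Fin 2) F) ∉ Bad
    with hGp
  -- the trace map
  set φ : G → (b → F) := fun g β =>
    trace (((g : GL (Fin 2) F) : Matrix (Fin 2) (Fin 2) F) * (β : Matrix (Fin 2) (Fin 2) F))
    with hφ
  have hφinj : Function.Injective φ := by
    intro g g' hgg
    apply Subtype.ext
    refine eq_of_trace_eq G hnd hbspan g.2 g'.2 fun β hβ => ?_
    exact congrFun hgg ⟨β, hβ⟩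
  have hGpcard : Gp.card ≤ Y.card ^ Fintype.card b := by
    have h1 : Gp.card ≤ (Fintype.piFinset fun _ : b => Y).card := by
      refine Finset.card_le_card_of_injOn φ ?_ (hφinj.injOn)
      intro g hg
      rw [Finset.mem_coe, hGp, Finset.mem_filter] at hg
      rw [Finset.mem_coe, Fintype.mem_piFinset]
      intro β
      have h2 := hY (g * γ β : G) (g * γ β : G).2 (hg.2 β)
      have h3 : (((g * γ β : G) : GL (Fin 2) F) : Matrix (Fin 2) (Fin 2) F)
          = ((g : GL (Fin 2) F) : Matrix (Fin 2) (Fin 2) F) * β := by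
        rw [← hγ β]
        simp
      rw [h3] at h2
      exact h2
    rw [Fintype.card_piFinset, Finset.prod_const, Finset.card_univ] at h1
    exact h1
  have hYpow : Y.card ^ Fintype.card b ≤ Y.card ^ 4 := by
    rcases Nat.eq_zero_or_pos Y.card with h0 | hpos
    · rw [h0, zero_pow (by omega), zero_pow (by omega)]
    · exact Nat.pow_le_pow_right hpos hcard
  -- the bad elements
  have hbad : (Finset.univ \ Gp).card
      ≤ Fintype.card b * Nat.card {g : G // (g : GL (Fin 2) F) ∈ Bad} := by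
    have hsub : Finset.univ \ Gp ⊆ Finset.univ.biUnion fun β : b =>
        Finset.univ.filter fun g : G => ((g * γ β : G) : GL (Fin 2) F) ∈ Bad := by
      intro g hg
      rw [Finset.mem_sdiff, hGp, Finset.mem_filter] at hg
      have h1 : ¬ ∀ β : b, ((g * γ β : G) : GL (Fin 2) F) ∉ Bad := fun h => hg.2 ⟨Finset.mem_univ _, h⟩
      push Not at h1
      obtain ⟨β, hβ⟩ := h1
      exact Finset.mem_biUnion.mpr ⟨β, Finset.mem_univ _, Finset.mem_filter.mpr ⟨Finset.mem_univ _, hβ⟩⟩
    refine (Finset.card_le_card hsub).trans (Finset.card_biUnion_le.trans ?_)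
    have hconst : ∀ β : b, (Finset.univ.filter fun g : G => ((g * γ β : G) : GL (Fin 2) F) ∈ Bad).card
        = Nat.card {g : G // (g : GL (Fin 2) F) ∈ Bad} := by
      intro β
      rw [Nat.card_eq_fintype_card, Fintype.card_subtype]
      refine Finset.card_bij (fun g _ => g * γ β) ?_ ?_ ?_
      · intro g hg
        rw [Finset.mem_filter] at hg ⊢
        exact ⟨Finset.mem_univ _, hg.2⟩
      · intro g _ g' _ h
        exact mul_right_cancel h
      · intro g hg
        rw [Finset.mem_filter] at hg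
        refine ⟨g * (γ β)⁻¹, ?_, ?_⟩
        · rw [Finset.mem_filter]
          refine ⟨Finset.mem_univ _, ?_⟩
          rw [inv_mul_cancel_right]
          exact hg.2
        · rw [inv_mul_cancel_right]
    rw [Finset.sum_congr rfl fun β _ => hconst β, Finset.sum_const, Finset.card_univ,
      smul_eq_mul]
  have htot : Nat.card G = Gp.card + (Finset.univ \ Gp).card := by
    rw [Nat.card_eq_fintype_card, ← Finset.card_univ, add_comm,
      Finset.card_sdiff_add_card_eq_card (Finset.subset_univ Gp)]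
  rw [htot]
  have h4 : Fintype.card b * Nat.card {g : G // (g : GL (Fin 2) F) ∈ Bad}
      ≤ 4 * Nat.card {g : G // (g : GL (Fin 2) F) ∈ Bad} := Nat.mul_le_mul_right _ hcard
  omega

open Classical in
/-- **Bounded image**, the form used by Deligne–Serre: if at most one eighth of the elements of `G`
are bad and the good ones have at most `M` traces, then `|G| ≤ 2 M ^ 4`. -/
theorem card_le_two_mul (hnd : TraceNondeg G) (Bad : Set (GL (Fin 2) F)) (Y : Finset F)
    (hY : ∀ g ∈ G, g ∉ Bad → trace ((g : GL (Fin 2) F) : Matrix (Fin 2) (Fin 2) F) ∈ Y)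
    (hBad : 8 * Nat.card {g : G // (g : GL (Fin 2) F) ∈ Bad} ≤ Nat.card G)
    {M : ℕ} (hM : Y.card ≤ M) : Nat.card G ≤ 2 * M ^ 4 := by
  have h1 := card_le_of_traceNondeg G hnd Bad Y hY
  have h2 : Y.card ^ 4 ≤ M ^ 4 := Nat.pow_le_pow_left hM 4
  omega

end Count

/-! ### nondegeneracy of the trace form for semisimple groups -/

section Nondeg

/-- `2 × 2`: if `tr x = 0 = tr x²` and `2 ≠ 0` then `x² = 0`. -/
theorem sq_eq_zero_of_trace (h2 : (2 : F) ≠ 0) (x : Matrix (Fin 2) (Fin 2) F)
    (h : trace x = 0) (h' : trace (x * x) = 0) : x * x = 0 := by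
  rw [Matrix.trace_fin_two] at h h'
  simp only [Matrix.mul_apply, Fin.sum_univ_two] at h'
  have hd : x 1 1 = - x 0 0 := by linear_combination h
  have hq : x 0 0 * x 0 0 + x 0 1 * x 1 0 = 0 := by
    have h3 : (2 : F) * (x 0 0 * x 0 0 + x 0 1 * x 1 0) = 0 := by
      rw [hd] at h'
      linear_combination h'
    rcases mul_eq_zero.mp h3 with h4 | h4
    · exact absurd h4 h2
    · exact h4
  ext i j
  fin_cases i <;> fin_cases j <;>
    simp only [Matrix.mul_apply, Fin.sum_univ_two, Fin.zero_eta, Fin.mk_one, Matrix.zero_apply]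
  · exact hq
  · rw [hd]; ring
  · rw [hd]; ring
  · rw [hd]; linear_combination hq

/-- a `2 × 2` matrix killing two independent vectors is zero. -/
theorem eq_zero_of_mulVec_eq_zero (x : Matrix (Fin 2) (Fin 2) F) (w u : Fin 2 → F)
    (hD : w 0 * u 1 - w 1 * u 0 ≠ 0) (hw : x *ᵥ w = 0) (hu : x *ᵥ u = 0) : x = 0 := by
  have hw' : ∀ i, x i 0 * w 0 + x i 1 * w 1 = 0 := fun i => by
    have := congrFun hw i
    simpa [Matrix.mulVec, dotProduct, Fin.sum_univ_two] using this
  have hu' : ∀ i, x i 0 * u 0 + x i 1 * u 1 = 0 := fun i => by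
    have := congrFun hu i
    simpa [Matrix.mulVec, dotProduct, Fin.sum_univ_two] using this
  have h0 : ∀ i, x i 0 = 0 := fun i => by
    have h3 : x i 0 * (w 0 * u 1 - w 1 * u 0) = 0 := by
      linear_combination u 1 * hw' i - w 1 * hu' i
    rcases mul_eq_zero.mp h3 with h4 | h4
    · exact h4
    · exact absurd h4 hD
  have h1 : ∀ i, x i 1 = 0 := fun i => by
    have h3 : x i 1 * (w 0 * u 1 - w 1 * u 0) = 0 := by
      linear_combination w 0 * hu' i - u 0 * hw' i
    rcases mul_eq_zero.mp h3 with h4 | h4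
    · exact h4
    · exact absurd h4 hD
  ext i j
  fin_cases j
  · exact h0 i
  · exact h1 i

/-- the kernel of a nonzero `2 × 2` matrix is at most a line. -/
theorem exists_smul_eq_of_mulVec_eq_zero {x : Matrix (Fin 2) (Fin 2) F} (hx : x ≠ 0)
    {w u : Fin 2 → F} (hw0 : w ≠ 0) (hw : x *ᵥ w = 0) (hu : x *ᵥ u = 0) :
    ∃ c : F, u = c • w := by
  have hD : w 0 * u 1 - w 1 * u 0 = 0 := by
    by_contra hD
    exact hx (eq_zero_of_mulVec_eq_zero x w u hD hw hu)
  by_cases h0 : w 0 = 0
  · have h1 : w 1 ≠ 0 := by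
      intro h1
      apply hw0
      ext i
      fin_cases i
      · exact h0
      · exact h1
    refine ⟨u 1 / w 1, ?_⟩
    ext i
    fin_cases i
    · simp only [Fin.zero_eta, Pi.smul_apply, smul_eq_mul, h0, mul_zero]
      rw [h0] at hD
      have h3 : w 1 * u 0 = 0 := by linear_combination -hD
      rcases mul_eq_zero.mp h3 with h4 | h4
      · exact absurd h4 h1
      · exact h4
    · simp only [Fin.mk_one, Pi.smul_apply, smul_eq_mul]
      field_simp
  · refine ⟨u 0 / w 0, ?_⟩
    ext i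
    fin_cases i
    · simp only [Fin.zero_eta, Pi.smul_apply, smul_eq_mul]
      field_simp
    · simp only [Fin.mk_one, Pi.smul_apply, smul_eq_mul]
      field_simp
      linear_combination hD

/-- every element of `span G` has the common eigenvectors of `G` as eigenvectors. -/
theorem exists_eigen_of_mem_spanMat {G : Subgroup (GL (Fin 2) F)} {w : Fin 2 → F}
    (hw : ∀ g ∈ G, ∃ c : F, ((g : GL (Fin 2) F) : Matrix (Fin 2) (Fin 2) F) *ᵥ w = c • w)
    {x : Matrix (Fin 2) (Fin 2) F} (hx : x ∈ spanMat G) : ∃ c : F, x *ᵥ w = c • w := by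
  unfold spanMat at hx
  induction hx using Submodule.span_induction with
  | mem y hy =>
    obtain ⟨g, hg, rfl⟩ := hy
    exact hw g hg
  | zero => exact ⟨0, by simp⟩
  | add y z _ _ hy hz =>
    obtain ⟨c, hc⟩ := hy
    obtain ⟨c', hc'⟩ := hz
    exact ⟨c + c', by rw [Matrix.add_mulVec, hc, hc', add_smul]⟩
  | smul a y _ hy =>
    obtain ⟨c, hc⟩ := hy
    exact ⟨a * c, by rw [Matrix.smul_mulVec, hc, smul_smul]⟩

/-- an element of the radical of the trace form has square zero. -/
theorem sq_eq_zero_of_rad (h2 : (2 : F) ≠ 0) {G : Subgroup (GL (Fin 2) F)}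
    {x : Matrix (Fin 2) (Fin 2) F} (hx : x ∈ spanMat G)
    (h : ∀ g ∈ G, trace (x * ((g : GL (Fin 2) F) : Matrix (Fin 2) (Fin 2) F)) = 0) :
    x * x = 0 := by
  refine sq_eq_zero_of_trace h2 x ?_ (trace_mul_eq_zero_of_forall h hx)
  have := trace_mul_eq_zero_of_forall h (one_mem_spanMat G)
  rwa [mul_one] at this

/-- a nonzero element of the radical of the trace form produces a `G`-stable line. -/
theorem exists_eigenvector_of_rad (h2 : (2 : F) ≠ 0) {G : Subgroup (GL (Fin 2) F)}
    {x : Matrix (Fin 2) (Fin 2) F} (hx : x ∈ spanMat G)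
    (h : ∀ g ∈ G, trace (x * ((g : GL (Fin 2) F) : Matrix (Fin 2) (Fin 2) F)) = 0)
    (hx0 : x ≠ 0) :
    ∃ w : Fin 2 → F, w ≠ 0 ∧ x *ᵥ w = 0 ∧
      ∀ g ∈ G, ∃ c : F, ((g : GL (Fin 2) F) : Matrix (Fin 2) (Fin 2) F) *ᵥ w = c • w := by
  have hsq := sq_eq_zero_of_rad h2 hx h
  -- a vector not killed by `x`
  obtain ⟨v, hv⟩ : ∃ v : Fin 2 → F, x *ᵥ v ≠ 0 := by
    by_contra hall
    push Not at hall
    apply hx0
    ext i j
    have := congrFun (hall (Pi.single j 1)) i
    simpa using this
  refine ⟨x *ᵥ v, hv, ?_, fun g hg => ?_⟩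
  · rw [Matrix.mulVec_mulVec, hsq, Matrix.zero_mulVec]
  · -- `x g x = 0`
    have hxg : x * ((g : GL (Fin 2) F) : Matrix (Fin 2) (Fin 2) F) ∈ spanMat G :=
      mul_coe_mem_spanMat hx hg
    have hxg' : ∀ k ∈ G, trace (x * ((g : GL (Fin 2) F) : Matrix (Fin 2) (Fin 2) F)
        * ((k : GL (Fin 2) F) : Matrix (Fin 2) (Fin 2) F)) = 0 := by
      intro k hk
      have := h (g * k) (G.mul_mem hg hk)
      rw [Matrix.mul_assoc]
      simpa using this
    have hsq' := sq_eq_zero_of_rad h2 hxg hxg'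
    have hxgx : x * ((g : GL (Fin 2) F) : Matrix (Fin 2) (Fin 2) F) * x = 0 := by
      have h3 : x * ((g : GL (Fin 2) F) : Matrix (Fin 2) (Fin 2) F) * x
          = (x * ((g : GL (Fin 2) F) : Matrix (Fin 2) (Fin 2) F)
              * (x * ((g : GL (Fin 2) F) : Matrix (Fin 2) (Fin 2) F)))
            * ((g⁻¹ : GL (Fin 2) F) : Matrix (Fin 2) (Fin 2) F) := by
        have h4 : ((g : GL (Fin 2) F) : Matrix (Fin 2) (Fin 2) F)
            * ((g⁻¹ : GL (Fin 2) F) : Matrix (Fin 2) (Fin 2) F) = 1 := by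
          rw [← Units.val_mul, mul_inv_cancel, Units.val_one]
        rw [Matrix.mul_assoc (x * _) (x * _), Matrix.mul_assoc x _ (g⁻¹ : GL (Fin 2) F).1, h4,
          Matrix.mul_one]
      rw [h3, hsq', Matrix.zero_mul]
    have hker : x *ᵥ (((g : GL (Fin 2) F) : Matrix (Fin 2) (Fin 2) F) *ᵥ (x *ᵥ v)) = 0 := by
      rw [Matrix.mulVec_mulVec, Matrix.mulVec_mulVec]
      have h5 : x * (((g : GL (Fin 2) F) : Matrix (Fin 2) (Fin 2) F) * x) = 0 := by
        rw [← Matrix.mul_assoc]
        exact hxgx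
      first
        | rw [h5, Matrix.zero_mulVec]
        | (rw [hxgx, Matrix.zero_mulVec])
    have hker0 : x *ᵥ (x *ᵥ v) = 0 := by
      rw [Matrix.mulVec_mulVec, hsq, Matrix.zero_mulVec]
    exact exists_smul_eq_of_mulVec_eq_zero hx0 hv hker0 hker

/-- **semisimple ⟹ nondegenerate**: if `2 ≠ 0` and every `G`-stable line has a `G`-stable
complement, the trace form is nondegenerate on `span G`. -/
theorem traceNondeg_of_semisimple (h2 : (2 : F) ≠ 0) (G : Subgroup (GL (Fin 2) F))
    (hss : ∀ w : Fin 2 → F, w ≠ 0 →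
      (∀ g ∈ G, ∃ c : F, ((g : GL (Fin 2) F) : Matrix (Fin 2) (Fin 2) F) *ᵥ w = c • w) →
      ∃ w' : Fin 2 → F, w 0 * w' 1 - w 1 * w' 0 ≠ 0 ∧
        ∀ g ∈ G, ∃ c : F, ((g : GL (Fin 2) F) : Matrix (Fin 2) (Fin 2) F) *ᵥ w' = c • w') :
    TraceNondeg G := by
  intro x hx h
  by_contra hx0
  obtain ⟨w, hw0, hxw, hw⟩ := exists_eigenvector_of_rad h2 hx h hx0
  obtain ⟨w', hD, hw'⟩ := hss w hw0 hw
  obtain ⟨c', hc'⟩ := exists_eigen_of_mem_spanMat hw' hx
  have hsq := sq_eq_zero_of_rad h2 hx h
  -- `c' = 0`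
  have hw'0 : w' ≠ 0 := by
    intro h0
    rw [h0] at hD
    simp at hD
  have hc0 : c' = 0 := by
    have h3 : x *ᵥ (x *ᵥ w') = 0 := by
      rw [Matrix.mulVec_mulVec, hsq, Matrix.zero_mulVec]
    rw [hc', Matrix.mulVec_smul, hc', smul_smul] at h3
    have h4 : c' * c' = 0 := by
      rcases smul_eq_zero.mp h3 with h5 | h5
      · exact h5
      · exact absurd h5 hw'0
    exact mul_self_eq_zero.mp h4
  rw [hc0, zero_smul] at hc'
  exact hx0 (eq_zero_of_mulVec_eq_zero x w w' hD hxw hc')

/-- **irreducible ⟹ nondegenerate**. -/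
theorem traceNondeg_of_irreducible (h2 : (2 : F) ≠ 0) (G : Subgroup (GL (Fin 2) F))
    (hirr : ∀ w : Fin 2 → F, w ≠ 0 →
      ¬ ∀ g ∈ G, ∃ c : F, ((g : GL (Fin 2) F) : Matrix (Fin 2) (Fin 2) F) *ᵥ w = c • w) :
    TraceNondeg G :=
  traceNondeg_of_semisimple h2 G fun w hw0 hw => absurd hw (hirr w hw0)

/-- a group of diagonal matrices has nondegenerate trace form (`2 ≠ 0`). -/
theorem traceNondeg_of_diagonal (h2 : (2 : F) ≠ 0) (G : Subgroup (GL (Fin 2) F))
    (hdiag : ∀ g ∈ G, ((g : GL (Fin 2) F) : Matrix (Fin 2) (Fin 2) F) 0 1 = 0 ∧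
      ((g : GL (Fin 2) F) : Matrix (Fin 2) (Fin 2) F) 1 0 = 0) : TraceNondeg G := by
  have hdall : ∀ y ∈ spanMat G, y 0 1 = 0 ∧ y 1 0 = 0 := by
    intro y hy
    unfold spanMat at hy
    induction hy using Submodule.span_induction with
    | mem y hy =>
      obtain ⟨g, hg, rfl⟩ := hy
      exact hdiag g hg
    | zero => simp
    | add y z _ _ hy hz => simp [Matrix.add_apply, hy.1, hy.2, hz.1, hz.2]
    | smul a y _ hy => simp [Matrix.smul_apply, hy.1, hy.2]
  intro x hx h
  have hsq := sq_eq_zero_of_rad h2 hx h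
  have hd : x 0 1 = 0 ∧ x 1 0 = 0 := hdall x hx
  have h00 : x 0 0 * x 0 0 = 0 := by
    have := congrFun (congrFun hsq 0) 0
    simpa [Matrix.mul_apply, Fin.sum_univ_two, hd.1] using this
  have h11 : x 1 1 * x 1 1 = 0 := by
    have := congrFun (congrFun hsq 1) 1
    simpa [Matrix.mul_apply, Fin.sum_univ_two, hd.2] using this
  ext i j
  fin_cases i <;> fin_cases j
  · exact mul_self_eq_zero.mp h00
  · exact hd.1
  · exact hd.2
  · exact mul_self_eq_zero.mp h11

end Nondeg

/-! ### semisimplification -/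

section Semisimplification

/-- an eigenvalue of a `2 × 2` matrix is a root of the characteristic polynomial. -/
theorem eigen_quadratic (A : Matrix (Fin 2) (Fin 2) F) {w : Fin 2 → F} (hw : w ≠ 0) {c : F}
    (h : A *ᵥ w = c • w) : c * c - trace A * c + det A = 0 := by
  have e0 : A 0 0 * w 0 + A 0 1 * w 1 = c * w 0 := by
    have := congrFun h 0
    simpa [Matrix.mulVec, dotProduct, Fin.sum_univ_two] using this
  have e1 : A 1 0 * w 0 + A 1 1 * w 1 = c * w 1 := by
    have := congrFun h 1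
    simpa [Matrix.mulVec, dotProduct, Fin.sum_univ_two] using this
  rw [Matrix.trace_fin_two, Matrix.det_fin_two]
  by_cases h0 : w 0 = 0
  · have h1 : w 1 ≠ 0 := by
      intro h1
      apply hw
      ext i
      fin_cases i
      · exact h0
      · exact h1
    have h3 : (c * c - (A 0 0 + A 1 1) * c + (A 0 0 * A 1 1 - A 0 1 * A 1 0)) * w 1 = 0 := by
      rw [h0] at e0 e1
      linear_combination (A 0 0 - c) * e1 - A 1 0 * e0
    rcases mul_eq_zero.mp h3 with h4 | h4
    · exact h4
    · exact absurd h4 h1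
  · have h3 : (c * c - (A 0 0 + A 1 1) * c + (A 0 0 * A 1 1 - A 0 1 * A 1 0)) * w 0 = 0 := by
      linear_combination (A 1 1 - c) * e0 - A 0 1 * e1
    rcases mul_eq_zero.mp h3 with h4 | h4
    · exact h4
    · exact absurd h4 h0

/-- the diagonal representation attached to two characters. -/
def diagHom {Γ : Type*} [Group Γ] (χ₁ χ₂ : Γ →* Fˣ) : Γ →* GL (Fin 2) F where
  toFun γ :=
    { val := Matrix.diagonal fun i => if i = 0 then (χ₁ γ : F) else (χ₂ γ : F)
      inv := Matrix.diagonal fun i => if i = 0 then ((χ₁ γ)⁻¹ : Fˣ) else ((χ₂ γ)⁻¹ : Fˣ)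
      val_inv := by
        rw [Matrix.diagonal_mul_diagonal, ← Matrix.diagonal_one]
        congr 1
        funext i
        fin_cases i <;> simp
      inv_val := by
        rw [Matrix.diagonal_mul_diagonal, ← Matrix.diagonal_one]
        congr 1
        funext i
        fin_cases i <;> simp }
  map_one' := by
    apply Units.ext
    show Matrix.diagonal _ = (1 : Matrix (Fin 2) (Fin 2) F)
    rw [← Matrix.diagonal_one]
    congr 1
    funext i
    fin_cases i <;> simp
  map_mul' γ δ := by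
    apply Units.ext
    show Matrix.diagonal _ = Matrix.diagonal _ * Matrix.diagonal _
    rw [Matrix.diagonal_mul_diagonal]
    congr 1
    funext i
    fin_cases i <;> simp

theorem coe_diagHom {Γ : Type*} [Group Γ] (χ₁ χ₂ : Γ →* Fˣ) (γ : Γ) :
    ((diagHom χ₁ χ₂ γ : GL (Fin 2) F) : Matrix (Fin 2) (Fin 2) F)
      = Matrix.diagonal fun i => if i = 0 then (χ₁ γ : F) else (χ₂ γ : F) := rfl

theorem trace_diagHom {Γ : Type*} [Group Γ] (χ₁ χ₂ : Γ →* Fˣ) (γ : Γ) :
    trace ((diagHom χ₁ χ₂ γ : GL (Fin 2) F) : Matrix (Fin 2) (Fin 2) F)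
      = (χ₁ γ : F) + (χ₂ γ : F) := by
  rw [coe_diagHom, Matrix.trace_fin_two]
  simp

theorem det_diagHom {Γ : Type*} [Group Γ] (χ₁ χ₂ : Γ →* Fˣ) (γ : Γ) :
    det ((diagHom χ₁ χ₂ γ : GL (Fin 2) F) : Matrix (Fin 2) (Fin 2) F)
      = (χ₁ γ : F) * (χ₂ γ : F) := by
  rw [coe_diagHom, Matrix.det_fin_two]
  simp

theorem traceNondeg_range_diagHom (h2 : (2 : F) ≠ 0) {Γ : Type*} [Group Γ] (χ₁ χ₂ : Γ →* Fˣ) :
    TraceNondeg (diagHom (F := F) χ₁ χ₂).range := by
  refine traceNondeg_of_diagonal h2 _ ?_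
  rintro g ⟨γ, rfl⟩
  rw [coe_diagHom]
  constructor <;> simp

/-- **Semisimplification.**  For every `ρ : Γ →* GL₂(F)` (`2 ≠ 0` in `F`) there is
`ρ' : Γ →* GL₂(F)` with the same traces and determinants (hence the same characteristic
polynomials), trivial on the kernel of `ρ`, such that the trace form is nondegenerate on the span
of the image of `ρ'`. -/
theorem exists_semisimplification (h2 : (2 : F) ≠ 0) {Γ : Type*} [Group Γ]
    (ρ : Γ →* GL (Fin 2) F) :
    ∃ ρ' : Γ →* GL (Fin 2) F,
      (∀ γ, trace ((ρ' γ : GL (Fin 2) F) : Matrix (Fin 2) (Fin 2) F)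
        = trace ((ρ γ : GL (Fin 2) F) : Matrix (Fin 2) (Fin 2) F)) ∧
      (∀ γ, det ((ρ' γ : GL (Fin 2) F) : Matrix (Fin 2) (Fin 2) F)
        = det ((ρ γ : GL (Fin 2) F) : Matrix (Fin 2) (Fin 2) F)) ∧
      (∀ γ, ρ γ = 1 → ρ' γ = 1) ∧ TraceNondeg ρ'.range := by
  classical
  by_cases hss : ∀ w : Fin 2 → F, w ≠ 0 →
      (∀ g ∈ ρ.range, ∃ c : F, ((g : GL (Fin 2) F) : Matrix (Fin 2) (Fin 2) F) *ᵥ w = c • w) →
      ∃ w' : Fin 2 → F, w 0 * w' 1 - w 1 * w' 0 ≠ 0 ∧
        ∀ g ∈ ρ.range, ∃ c : F, ((g : GL (Fin 2) F) : Matrix (Fin 2) (Fin 2) F) *ᵥ w' = c • w'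
  · exact ⟨ρ, fun _ => rfl, fun _ => rfl, fun _ h => h, traceNondeg_of_semisimple h2 _ hss⟩
  · push Not at hss
    obtain ⟨w, hw0, hw, -⟩ := hss
    have hw' : ∀ γ : Γ, ∃ c : F,
        ((ρ γ : GL (Fin 2) F) : Matrix (Fin 2) (Fin 2) F) *ᵥ w = c • w :=
      fun γ => hw (ρ γ) ⟨γ, rfl⟩
    choose c hc using hw'
    have huniq : ∀ {a b : F}, a • w = b • w → a = b := by
      intro a b hab
      have h3 : (a - b) • w = 0 := by rw [sub_smul, hab, sub_self]
      rcases smul_eq_zero.mp h3 with h4 | h4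
      · exact sub_eq_zero.mp h4
      · exact absurd h4 hw0
    have hc1 : c 1 = 1 := by
      apply huniq
      rw [← hc 1, map_one, Units.val_one, Matrix.one_mulVec, one_smul]
    have hcmul : ∀ γ δ, c (γ * δ) = c γ * c δ := by
      intro γ δ
      apply huniq
      rw [← hc (γ * δ), map_mul, Units.val_mul, ← Matrix.mulVec_mulVec, hc δ,
        Matrix.mulVec_smul, hc γ, smul_smul, mul_comm]
    have hcne : ∀ γ, c γ ≠ 0 := by
      intro γ h0
      have h3 : c (γ * γ⁻¹) = 0 := by rw [hcmul, h0, zero_mul]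
      rw [mul_inv_cancel, hc1] at h3
      exact one_ne_zero h3
    -- the two characters
    let χ₁ : Γ →* Fˣ :=
      { toFun := fun γ => Units.mk0 (c γ) (hcne γ)
        map_one' := by
          apply Units.ext
          exact hc1
        map_mul' := fun γ δ => by
          apply Units.ext
          exact hcmul γ δ }
    let χ₂ : Γ →* Fˣ := (Matrix.GeneralLinearGroup.det.comp ρ) / χ₁
    have hχ₁ : ∀ γ, (χ₁ γ : F) = c γ := fun _ => rfl
    have hχ₂ : ∀ γ, (χ₁ γ : F) * (χ₂ γ : F)
        = det ((ρ γ : GL (Fin 2) F) : Matrix (Fin 2) (Fin 2) F) := by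
      intro γ
      have h3 : χ₁ γ * χ₂ γ = Matrix.GeneralLinearGroup.det (ρ γ) := by
        show χ₁ γ * ((Matrix.GeneralLinearGroup.det.comp ρ) γ / χ₁ γ) = _
        rw [mul_div_cancel]
        rfl
      have h4 := congrArg (fun u : Fˣ => (u : F)) h3
      simpa using h4
    refine ⟨diagHom χ₁ χ₂, fun γ => ?_, fun γ => ?_, fun γ hγ => ?_,
      traceNondeg_range_diagHom h2 χ₁ χ₂⟩
    · rw [trace_diagHom]
      have hq := eigen_quadratic _ hw0 (hc γ)
      have hdet := hχ₂ γ
      rw [hχ₁] at hdet ⊢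
      have hcγ := hcne γ
      -- `c² - tr c + c χ₂ = 0`
      rw [← hdet] at hq
      have h5 : c γ * (c γ - trace ((ρ γ : GL (Fin 2) F) : Matrix (Fin 2) (Fin 2) F)
          + (χ₂ γ : F)) = 0 := by
        linear_combination hq
      rcases mul_eq_zero.mp h5 with h6 | h6
      · exact absurd h6 hcγ
      · linear_combination h6
    · rw [det_diagHom]
      exact hχ₂ γ
    · have h1 : c γ = 1 := by
        apply huniq
        rw [← hc γ, hγ, Units.val_one, Matrix.one_mulVec, one_smul]
      have h3 : (χ₂ γ : F) = 1 := by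
        have := hχ₂ γ
        rw [hχ₁, h1, one_mul, hγ, Units.val_one, Matrix.det_one] at this
        exact this
      apply Units.ext
      rw [coe_diagHom, Units.val_one, ← Matrix.diagonal_one]
      congr 1
      funext i
      fin_cases i
      · simp only [Fin.zero_eta, if_true]
        rw [hχ₁, h1]
      · simp only [Fin.mk_one]
        rw [if_neg (by decide), h3]

end Semisimplification

/-! ### the final form -/

section Final

open Classical in
/-- **DS Prop. 7.2** (all fields, no classification of subgroups): let `G` be a finite subgroup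
of `GL₂(F)` with nondegenerate trace form (e.g. acting semisimply on `F²`, `2 ≠ 0`); if `H` is a
set containing at least `7/8` of the elements of `G`, and the elements of `H ∩ G` have at most `M`
traces, then `|G| ≤ 2 M ^ 4`. -/
theorem card_le_of_good_subset (G : Subgroup (GL (Fin 2) F)) [Finite G]
    (hnd : TraceNondeg G) (H : Set (GL (Fin 2) F))
    (hH : 7 * Nat.card G ≤ 8 * Nat.card {g : G // (g : GL (Fin 2) F) ∈ H}) {M : ℕ}
    (hM : ((fun g : GL (Fin 2) F => trace (g : Matrix (Fin 2) (Fin 2) F)) ''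
      (H ∩ (G : Set (GL (Fin 2) F)))).ncard ≤ M) :
    Nat.card G ≤ 2 * M ^ 4 := by
  have hGfin : (G : Set (GL (Fin 2) F)).Finite := Set.toFinite _
  have hfin : ((fun g : GL (Fin 2) F => trace (g : Matrix (Fin 2) (Fin 2) F)) ''
      (H ∩ (G : Set (GL (Fin 2) F)))).Finite :=
    (hGfin.subset Set.inter_subset_right).image _
  refine card_le_two_mul G hnd Hᶜ hfin.toFinset ?_ ?_ ?_
  · intro g hg hgB
    rw [Set.Finite.mem_toFinset]
    refine ⟨g, ⟨?_, hg⟩, rfl⟩
    by_contra hgH
    exact hgB hgH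
  · -- `|G| = |H ∩ G| + |Hᶜ ∩ G|`
    haveI : Fintype G := Fintype.ofFinite G
    have hsplit : Nat.card {g : G // (g : GL (Fin 2) F) ∈ H}
        + Nat.card {g : G // (g : GL (Fin 2) F) ∈ Hᶜ} = Nat.card G := by
      rw [Nat.card_eq_fintype_card, Nat.card_eq_fintype_card, Nat.card_eq_fintype_card]
      have h3 := Fintype.card_subtype_le (fun g : G => (g : GL (Fin 2) F) ∈ H)
      have h4 : Fintype.card {g : G // ¬ ((g : GL (Fin 2) F) ∈ H)}
          = Fintype.card G - Fintype.card {g : G // (g : GL (Fin 2) F) ∈ H} :=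
        Fintype.card_subtype_compl _
      have h5 : Fintype.card {g : G // (g : GL (Fin 2) F) ∈ Hᶜ}
          = Fintype.card {g : G // ¬ ((g : GL (Fin 2) F) ∈ H)} :=
        Fintype.card_congr (Equiv.refl _)
      omega
    omega
  · rw [← Set.ncard_eq_toFinset_card _ hfin]
    exact hM

end Final

end Fermat.Agent.S48BI
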