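import Fermat.Agent.S48.Bnd.Density
import Fermat.Agent.S48.Bnd.Rep
import Fermat.Agent.S48.BoundedImage
import Fermat.Agent.Lib.Frobenius.Exists

/-!
# S48 (Deligne–Serre), seat BND: bounded image (helper55)

`boundedStatement_of : ModLStatement → FiniteValuesStatement → ChebotarevStatement →
BoundedStatement`.

Proof.  `η = 1/8`.  (FV) gives a finite set `Y` and a set `X` of primes of upper logarithmic
density `≤ 1/8` with `a_p ∈ Y` for `p ∉ X`.  For `ℓ ∉ S ∪ {2}` take `ρ₀` from (MODL), write it in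
a basis and semisimplify (`S48BI.exists_semisimplification`): `r : Γℚ →* GL₂(k)` with the same
traces and determinants, trivial on `ker ρ₀`, with nondegenerate trace form on `G = range r`.

* `det g ∈ μ_n(k)`, `n = φ(N)`, for every `g ∈ G`: by (P5) the class of `g` and `g⁻¹` contains
  the Frobenius of a prime `p ∤ N ℓ`, where `det = φ(ε(p))`.
* `Tr = μ_n(k) · φ(Y)` (at most `n |Y|` elements) is stable under multiplication by `μ_n(k)`, so
  `C = {g ∈ G : tr g ∉ Tr}` is stable under conjugation and inversion (`tr g⁻¹ = tr g / det g`).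
  The primes with Frobenius in `C` lie in `X ∪ {p ∣ N ℓ}`, so `|C|/|G| ≤ 1/8` by (P5).
* `S48BI.card_le_of_good_subset`: `|G| ≤ 2 (n |Y|)⁴`.
-/

set_option autoImplicit false

namespace Fermat.Agent.S48.Bnd

open Polynomial Matrix Fermat.Agent.S48

local notation "Γℚ" => (AlgebraicClosure ℚ ≃ₐ[ℚ] AlgebraicClosure ℚ)

/-- `tr g⁻¹ · det g = tr g` for `g ∈ GL₂`. -/
theorem trace_inv_mul_det {k : Type} [Field k] (g : GL (Fin 2) k) :
    trace ((g⁻¹ : GL (Fin 2) k) : Matrix (Fin 2) (Fin 2) k)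
        * det ((g : GL (Fin 2) k) : Matrix (Fin 2) (Fin 2) k)
      = trace ((g : GL (Fin 2) k) : Matrix (Fin 2) (Fin 2) k) := by
  have hdet : det ((g : GL (Fin 2) k) : Matrix (Fin 2) (Fin 2) k) ≠ 0 := by
    have := Matrix.GeneralLinearGroup.det_ne_zero g
    simpa using this
  rw [Matrix.coe_units_inv, Matrix.inv_def, Matrix.adjugate_fin_two, Matrix.trace_smul,
    Matrix.trace_fin_two, Matrix.trace_fin_two]
  simp only [Matrix.of_apply, Matrix.cons_val', Matrix.cons_val_zero, Matrix.cons_val_one,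
    Matrix.cons_val_fin_one, smul_eq_mul, Ring.inverse_eq_inv']
  field_simp
  ring

theorem trace_conj {k : Type} [Field k] (g h : GL (Fin 2) k) :
    trace ((h * g * h⁻¹ : GL (Fin 2) k) : Matrix (Fin 2) (Fin 2) k)
      = trace ((g : GL (Fin 2) k) : Matrix (Fin 2) (Fin 2) k) := by
  rw [Units.val_mul, Units.val_mul, Matrix.trace_mul_cycle, ← Units.val_mul, inv_mul_cancel,
    Units.val_one, one_mul]

theorem det_conj {k : Type} [Field k] (g h : GL (Fin 2) k) :
    det ((h * g * h⁻¹ : GL (Fin 2) k) : Matrix (Fin 2) (Fin 2) k)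
      = det ((g : GL (Fin 2) k) : Matrix (Fin 2) (Fin 2) k) := by
  rw [Units.val_mul, Units.val_mul, Matrix.det_mul, Matrix.det_mul, mul_comm, ← mul_assoc,
    ← Matrix.det_mul, ← Units.val_mul, inv_mul_cancel, Units.val_one, Matrix.det_one, one_mul]

theorem det_inv_mul_det {k : Type} [Field k] (g : GL (Fin 2) k) :
    det ((g⁻¹ : GL (Fin 2) k) : Matrix (Fin 2) (Fin 2) k)
        * det ((g : GL (Fin 2) k) : Matrix (Fin 2) (Fin 2) k) = 1 := by
  rw [← Matrix.det_mul, ← Units.val_mul, inv_mul_cancel, Units.val_one, Matrix.det_one]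

/-- The value of the nebentypus at a prime `p ∤ N` is a `φ(N)`-th root of unity. -/
theorem eps_pow_totient {N : ℕ} [NeZero N] (ε : DirichletCharacter ℂ N) {p : ℕ}
    (hp : p.Prime) (hpN : ¬ p ∣ N) : ε (p : ZMod N) ^ N.totient = 1 := by
  have hcop : p.Coprime N := (Nat.Prime.coprime_iff_not_dvd hp).mpr hpN
  have h1 : ((ZMod.unitOfCoprime p hcop : (ZMod N)ˣ) : ZMod N) = (p : ZMod N) :=
    ZMod.coe_unitOfCoprime p hcop
  have h2 := ZMod.pow_totient (ZMod.unitOfCoprime p hcop)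
  have h3 : (p : ZMod N) ^ N.totient = 1 := by
    rw [← h1, ← Units.val_pow_eq_pow_val, h2, Units.val_one]
  rw [← map_pow, h3, map_one]

/-- The local data extracted from `IsAttachedModL` at a Frobenius element. -/
theorem attached_trace_det {N : ℕ} [NeZero N] {ε : DirichletCharacter ℂ N} {a : ℕ → ℂ} {ℓ : ℕ}
    {k : Type} [Field k] {φ : integralClosure ℤ ℂ →+* k} {ρ₀ : ResidualGaloisRep k}
    (hρ₀ : IsAttachedModL N ε a ℓ φ ρ₀) (b : Module.Basis (Fin 2) k ρ₀.V)
    {p : ℕ} (hp : p.Prime) (hpN : ¬ p ∣ N * ℓ)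
    {A : ValuationSubring (AlgebraicClosure ℚ)} (hA : A.LiesOverPrime p) {σ : Γℚ}
    (hσ : A.IsFrobeniusAt σ p) :
    ∃ t d : integralClosure ℤ ℂ, (t : ℂ) = a p ∧ (d : ℂ) = ε (p : ZMod N) ∧
      trace ((toGL ρ₀ b σ : GL (Fin 2) k) : Matrix (Fin 2) (Fin 2) k) = φ t ∧
      det ((toGL ρ₀ b σ : GL (Fin 2) k) : Matrix (Fin 2) (Fin 2) k) = φ d := by
  obtain ⟨t, d, ht, hd, hcp⟩ := (hρ₀ p hp hpN).2 A hA σ hσ
  rw [charpoly_eq_toGL ρ₀ b σ] at hcp
  obtain ⟨h1, h2⟩ := quad_inj hcp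
  exact ⟨t, d, ht, hd, h1, h2⟩

section main

variable {k : Type} [Field k]

/-- The counting step: if at most `1/8` of a finite type lies in `C`, at least `7/8` lies in the
complement. -/
theorem seven_eighths {G : Type} [Finite G] (P : G → Prop)
    (h : 8 * Nat.card {g : G // ¬ P g} ≤ Nat.card G) :
    7 * Nat.card G ≤ 8 * Nat.card {g : G // P g} := by
  classical
  have : Fintype G := Fintype.ofFinite G
  have h4 : Fintype.card {g : G // ¬ P g} = Fintype.card G - Fintype.card {g : G // P g} :=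
    Fintype.card_subtype_compl _
  have h3 := Fintype.card_subtype_le P
  rw [Nat.card_eq_fintype_card, Nat.card_eq_fintype_card] at h
  rw [Nat.card_eq_fintype_card, Nat.card_eq_fintype_card]
  omega

end main

/-- **(BND)**: bounded image, from (MODL), (FV) and (P5). -/
theorem boundedStatement_of (hMODL : ModLStatement) (hFV : FiniteValuesStatement)
    (hP5 : ChebotarevStatement) : BoundedStatement := by
  classical
  intro N _ ε f hf
  obtain ⟨Y, X, hX, hY⟩ := hFV N ε f hf (1 / 8) (by norm_num)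
  obtain ⟨S₀, hS₀⟩ := hMODL N ε f hf
  set n : ℕ := N.totient with hn
  have hn0 : 0 < n := Nat.totient_pos.mpr (Nat.pos_of_ne_zero (NeZero.ne N))
  refine ⟨insert 2 S₀, 2 * (n * Y.card) ^ 4, fun ℓ hℓ hℓS k _ _ _ φ => ?_⟩
  have hℓ2 : ℓ ≠ 2 := fun h => hℓS (h ▸ Finset.mem_insert_self _ _)
  have hℓS₀ : ℓ ∉ S₀ := fun h => hℓS (Finset.mem_insert_of_mem h)
  obtain ⟨ρ₀, hρ₀⟩ := hS₀ ℓ hℓ hℓS₀ k φ
  obtain ⟨b⟩ := exists_basis ρ₀
  have h2 : (2 : k) ≠ 0 := by
    intro h20
    have h3 : ((2 : ℕ) : k) = 0 := by exact_mod_cast h20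
    rw [CharP.cast_eq_zero_iff k ℓ] at h3
    exact hℓ2 ((Nat.prime_dvd_prime_iff_eq hℓ Nat.prime_two).mp h3)
  obtain ⟨r, htr, hdet, hker, hnd⟩ := S48BI.exists_semisimplification h2 (toGL ρ₀ b)
  have hfac : GaloisFactorsThroughFiniteLevel r := by
    obtain ⟨L, hL, hL'⟩ := ρ₀.factorsThroughFiniteLevel
    exact ⟨L, hL, fun σ hσ => hker σ (toGL_eq_one_of ρ₀ b (hL' σ hσ))⟩
  -- trace and determinant of `r` at Frobenius elements
  have hfrob : ∀ p : ℕ, p.Prime → ¬ p ∣ N * ℓ →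
      ∀ A : ValuationSubring (AlgebraicClosure ℚ), A.LiesOverPrime p →
      ∀ σ : Γℚ, A.IsFrobeniusAt σ p →
      ∃ t d : integralClosure ℤ ℂ, (t : ℂ) = ModularFormClass.qCoeff f p ∧
        (d : ℂ) = ε (p : ZMod N) ∧
        trace ((r σ : GL (Fin 2) k) : Matrix (Fin 2) (Fin 2) k) = φ t ∧
        det ((r σ : GL (Fin 2) k) : Matrix (Fin 2) (Fin 2) k) = φ d := by
    intro p hp hpN A hA σ hσ
    obtain ⟨t, d, ht, hd, h1, h2⟩ := attached_trace_det hρ₀ b hp hpN hA hσ
    exact ⟨t, d, ht, hd, by rw [htr, h1], by rw [hdet, h2]⟩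
  refine ⟨ofGL r hfac, ?_, ?_⟩
  · -- attached
    intro p hp hpN
    refine ⟨fun A hA σ hσ => ?_, fun A hA σ hσ => ?_⟩
    · exact ofGL_ρ_eq_one_of r hfac (hker σ (toGL_eq_one_of ρ₀ b ((hρ₀ p hp hpN).1 A hA σ hσ)))
    · obtain ⟨t, d, ht, hd, h1, h2⟩ := hfrob p hp hpN A hA σ hσ
      exact ⟨t, d, ht, hd, by rw [charpoly_ofGL, h1, h2]⟩
  · -- the bound
    rw [card_range_ofGL]
    have hGfin : (Set.range r).Finite := finite_range_of_factors r hfac
    set G : Subgroup (GL (Fin 2) k) := r.range with hG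
    have hGr : (G : Set (GL (Fin 2) k)) = Set.range r := MonoidHom.coe_range r
    have : Finite G := by
      have : Finite (G : Set (GL (Fin 2) k)) := by rw [hGr]; exact hGfin.to_subtype
      exact this
    have hcardG : Nat.card (Set.range r) = Nat.card G := by
      rw [← hGr]; rfl
    rw [hcardG]
    -- the surjection onto `G`
    set r' : Γℚ →* G := r.rangeRestrict with hr'
    have hr'surj : Function.Surjective r' := r.rangeRestrict_surjective
    have hr'val : ∀ σ, ((r' σ : G) : GL (Fin 2) k) = r σ := fun σ => rfl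
    have hr'fac : GaloisFactorsThroughFiniteLevel r' := by
      obtain ⟨L, hL, hL'⟩ := hfac
      refine ⟨L, hL, fun σ hσ => ?_⟩
      apply Subtype.ext
      rw [hr'val, hL' σ hσ]
      rfl
    set T : Finset ℕ := (N * ℓ).primeFactors with hT
    have hNℓ : N * ℓ ≠ 0 := Nat.mul_ne_zero (NeZero.ne N) hℓ.ne_zero
    have hTmem : ∀ p : ℕ, p.Prime → p ∉ T → ¬ p ∣ N * ℓ := by
      intro p hp hpT hdvd
      exact hpT (Nat.mem_primeFactors.mpr ⟨hp, hdvd, hNℓ⟩)
    -- roots of unity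
    set Un : Finset k := Polynomial.nthRootsFinset n (1 : k) with hUn
    have hUnmem : ∀ x : k, x ∈ Un ↔ x ^ n = 1 := fun x => Polynomial.mem_nthRootsFinset hn0 1
    have hUncard : Un.card ≤ n := by
      rw [hUn, Polynomial.nthRootsFinset_def]
      exact le_trans (Multiset.toFinset_card_le _) (Polynomial.card_nthRoots n 1)
    -- determinants lie in `Un`
    have hdetUn : ∀ g : G, det ((g : GL (Fin 2) k) : Matrix (Fin 2) (Fin 2) k) ∈ Un := by
      intro g
      set Cg : Set G := {x | ∃ h : G, x = h * g * h⁻¹ ∨ x = h * g⁻¹ * h⁻¹} with hCg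
      have hCgconj : ∀ x h : G, x ∈ Cg → h * x * h⁻¹ ∈ Cg := by
        rintro x h ⟨h', hx | hx⟩
        · exact ⟨h * h', Or.inl (by rw [hx]; group)⟩
        · exact ⟨h * h', Or.inr (by rw [hx]; group)⟩
      have hCginv : ∀ x : G, x ∈ Cg → x⁻¹ ∈ Cg := by
        rintro x ⟨h', hx | hx⟩
        · exact ⟨h', Or.inr (by rw [hx]; group)⟩
        · exact ⟨h', Or.inl (by rw [hx]; group)⟩
      have hgCg : g ∈ Cg := ⟨1, Or.inl (by group)⟩
      have hpos : (0 : ℝ) < (Nat.card Cg : ℝ) / Nat.card G := by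
        have h1 : 0 < Nat.card Cg := by
          have : Nonempty Cg := ⟨⟨g, hgCg⟩⟩
          exact Nat.card_pos
        have h2 : 0 < Nat.card G := Nat.card_pos
        positivity
      obtain ⟨p, hpZ, hp, hpT⟩ := exists_mem_not_mem_of_lower T hpos
        (hP5 G r' hr'surj hr'fac Cg hCgconj hCginv)
      have hpN := hTmem p hp hpT
      obtain ⟨A, σ, hA, hσ⟩ := Fermat.Agent.FrobExists.exists_frobenius p hp
      obtain ⟨t, d, -, hd, -, hdσ⟩ := hfrob p hp hpN A hA σ hσ
      have hpN' : ¬ p ∣ N := fun h => hpN (Dvd.dvd.mul_right h ℓ)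
      have hdn : d ^ n = 1 := by
        apply Subtype.ext
        rw [SubmonoidClass.coe_pow, hd, eps_pow_totient ε hp hpN']
        rfl
      have hφd : (φ d) ^ n = 1 := by rw [← map_pow, hdn, map_one]
      have hmem : r' σ ∈ Cg := hpZ.2 A hA σ hσ
      obtain ⟨h, hx | hx⟩ := hmem
      · have h3 : r σ = (h : GL (Fin 2) k) * g * (h : GL (Fin 2) k)⁻¹ := by
          rw [← hr'val, hx]; rfl
        rw [hUnmem, ← det_conj (g : GL (Fin 2) k) h, ← h3, hdσ]
        exact hφd
      · have h3 : r σ = (h : GL (Fin 2) k) * (g : GL (Fin 2) k)⁻¹ * (h : GL (Fin 2) k)⁻¹ := by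
          rw [← hr'val, hx]; rfl
        have h4 : det (((g : GL (Fin 2) k)⁻¹ : GL (Fin 2) k) : Matrix (Fin 2) (Fin 2) k) ^ n
            = 1 := by
          rw [← det_conj ((g : GL (Fin 2) k)⁻¹) h, ← h3, hdσ]
          exact hφd
        have h5 := det_inv_mul_det (g : GL (Fin 2) k)
        rw [hUnmem]
        have h6 : (det (((g : GL (Fin 2) k)⁻¹ : GL (Fin 2) k) : Matrix (Fin 2) (Fin 2) k)
            * det ((g : GL (Fin 2) k) : Matrix (Fin 2) (Fin 2) k)) ^ n = 1 := by
          rw [h5, one_pow]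
        rw [mul_pow, h4, one_mul] at h6
        exact h6
    -- the images of the good values
    set ψ : ℂ → k := fun y => if h : IsIntegral ℤ y then φ ⟨y, h⟩ else 0 with hψ
    have hψt : ∀ t : integralClosure ℤ ℂ, ψ (t : ℂ) = φ t := by
      intro t
      have ht : IsIntegral ℤ (t : ℂ) := t.2
      simp only [hψ, dif_pos ht]
    set Tr : Finset k := (Un ×ˢ Y.image ψ).image (fun x => x.1 * x.2) with hTr
    have hTrcard : Tr.card ≤ n * Y.card := by
      calc Tr.card ≤ (Un ×ˢ Y.image ψ).card := Finset.card_image_le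
        _ = Un.card * (Y.image ψ).card := Finset.card_product _ _
        _ ≤ n * Y.card := Nat.mul_le_mul hUncard Finset.card_image_le
    have hTrmul : ∀ u x : k, u ∈ Un → x ∈ Tr → u * x ∈ Tr := by
      intro u x hu hx
      rw [hTr, Finset.mem_image] at hx ⊢
      obtain ⟨⟨u', y⟩, huy, rfl⟩ := hx
      rw [Finset.mem_product] at huy
      refine ⟨(u * u', y), ?_, by simp only; ring⟩
      rw [Finset.mem_product]
      refine ⟨?_, huy.2⟩
      rw [hUnmem] at hu ⊢
      have hu' := (hUnmem u').mp huy.1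
      rw [mul_pow, hu, hu', one_mul]
    have hYTr : ∀ y ∈ Y, ψ y ∈ Tr := by
      intro y hy
      rw [hTr, Finset.mem_image]
      refine ⟨(1, ψ y), ?_, by simp⟩
      rw [Finset.mem_product]
      exact ⟨(hUnmem 1).mpr (one_pow n), Finset.mem_image_of_mem ψ hy⟩
    -- the exceptional set
    set C : Set G := {g | trace ((g : GL (Fin 2) k) : Matrix (Fin 2) (Fin 2) k) ∉ Tr} with hC
    have hCconj : ∀ g h : G, g ∈ C → h * g * h⁻¹ ∈ C := by
      intro g h hg
      show trace (((h * g * h⁻¹ : G) : GL (Fin 2) k) : Matrix (Fin 2) (Fin 2) k) ∉ Tr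
      have : ((h * g * h⁻¹ : G) : GL (Fin 2) k)
          = (h : GL (Fin 2) k) * g * (h : GL (Fin 2) k)⁻¹ := rfl
      rw [this, trace_conj]
      exact hg
    have hCinv : ∀ g : G, g ∈ C → g⁻¹ ∈ C := by
      intro g hg hgi
      apply hg
      have h1 := trace_inv_mul_det (g : GL (Fin 2) k)
      have h2 : trace (((g⁻¹ : G) : GL (Fin 2) k) : Matrix (Fin 2) (Fin 2) k) ∈ Tr := hgi
      have h3 : ((g⁻¹ : G) : GL (Fin 2) k) = (g : GL (Fin 2) k)⁻¹ := rfl
      rw [h3] at h2
      rw [← h1, mul_comm]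
      exact hTrmul _ _ (hdetUn g) h2
    have hsub : ∀ p ∈ frobPrimes r' C, p.Prime → p ∈ X ∨ p ∈ T := by
      intro p hpZ hp
      by_contra hcon
      push Not at hcon
      obtain ⟨hpX, hpT⟩ := hcon
      have hpN := hTmem p hp hpT
      have hpN' : ¬ p ∣ N := fun h => hpN (Dvd.dvd.mul_right h ℓ)
      obtain ⟨A, σ, hA, hσ⟩ := Fermat.Agent.FrobExists.exists_frobenius p hp
      obtain ⟨t, d, ht, -, htσ, -⟩ := hfrob p hp hpN A hA σ hσ
      have hmem : r' σ ∈ C := hpZ.2 A hA σ hσ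
      apply hmem
      show trace ((r σ : GL (Fin 2) k) : Matrix (Fin 2) (Fin 2) k) ∈ Tr
      rw [htσ, ← hψt t, ht]
      exact hYTr _ (hY p hp hpN' hpX)
    have hdens : (Nat.card C : ℝ) / Nat.card G ≤ 1 / 8 :=
      le_of_lower_of_upper T hsub (hP5 G r' hr'surj hr'fac C hCconj hCinv) hX
    have hcardpos : (0 : ℝ) < Nat.card G := by
      have : 0 < Nat.card G := Nat.card_pos
      exact_mod_cast this
    have h8 : 8 * Nat.card C ≤ Nat.card G := by
      rw [div_le_iff₀ hcardpos] at hdens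
      have : (8 : ℝ) * Nat.card C ≤ Nat.card G := by linarith
      exact_mod_cast this
    -- apply DS Prop. 7.2
    set H : Set (GL (Fin 2) k) :=
      {g | trace ((g : GL (Fin 2) k) : Matrix (Fin 2) (Fin 2) k) ∈ Tr} with hH
    refine S48BI.card_le_of_good_subset G hnd H ?_ ?_
    · have h9 : Nat.card {g : G // ¬ ((g : GL (Fin 2) k) ∈ H)} = Nat.card C := rfl
      exact seven_eighths (fun g : G => (g : GL (Fin 2) k) ∈ H) (by rw [h9]; exact h8)
    · have hsubTr : ((fun g : GL (Fin 2) k => trace (g : Matrix (Fin 2) (Fin 2) k)) ''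
          (H ∩ (G : Set (GL (Fin 2) k)))) ⊆ (Tr : Set k) := by
        rintro _ ⟨g, ⟨hgH, -⟩, rfl⟩
        exact hgH
      calc ((fun g : GL (Fin 2) k => trace (g : Matrix (Fin 2) (Fin 2) k)) ''
          (H ∩ (G : Set (GL (Fin 2) k)))).ncard
          ≤ (Tr : Set k).ncard := Set.ncard_le_ncard hsubTr (Finset.finite_toSet Tr)
        _ = Tr.card := Set.ncard_coe_finset Tr
        _ ≤ n * Y.card := hTrcard

end Fermat.Agent.S48.Bnd
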