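/-
S48 (Deligne–Serre), helper98: every embedding of a subfield of `ℂ` which is algebraic over `ℚ`
extends to a ring automorphism of `ℂ` (transcendence basis + uniqueness of algebraic closures).
Used by INT (`S48/Integral.lean`) and FV: conjugates `τ(a_p)` for `τ : ℂ →+* ℂ`.
-/
import Mathlib

set_option autoImplicit false

noncomputable section

namespace Fermat.Agent.S48

open Algebra

/-- a transcendence basis of `ℂ/ℚ` is a transcendence basis of `ℂ/K` for every subfield `K`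
algebraic over `ℚ`. -/
theorem embExt_isTranscendenceBasis {ι : Type*} {v : ι → ℂ} (hv : IsTranscendenceBasis ℚ v)
    (K : IntermediateField ℚ ℂ) [Algebra.IsAlgebraic ℚ K] : IsTranscendenceBasis K v := by
  rw [isTranscendenceBasis_iff_algebraicIndependent_isAlgebraic]
  refine ⟨hv.1.extendScalars K, ?_⟩
  let Rv := adjoin ℚ (Set.range v)
  let Sv := adjoin K (Set.range v)
  have le : Rv ≤ Sv.restrictScalars ℚ := by
    rw [Subalgebra.restrictScalars_adjoin]; exact le_sup_right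
  letI : Algebra Rv Sv := (Subalgebra.inclusion le).toAlgebra
  have : IsScalarTower Rv Sv ℂ := .of_algebraMap_eq fun x ↦ rfl
  have := hv.isAlgebraic
  exact .extendScalars (Subalgebra.inclusion_injective le)

/-- **Extension of embeddings**: a ring homomorphism `φ : L → ℂ` from a subfield `L ⊆ ℂ`
algebraic over `ℚ` extends to a ring automorphism of `ℂ`. -/
theorem exists_ringEquiv_extends (L : IntermediateField ℚ ℂ) [Algebra.IsAlgebraic ℚ L]
    (φ : L →+* ℂ) : ∃ τ : ℂ ≃+* ℂ, ∀ x : L, τ (x : ℂ) = φ x := by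
  obtain ⟨ι, v, hv⟩ := exists_isTranscendenceBasis' ℚ ℂ
  let φa : L →ₐ[ℚ] ℂ := φ.toRatAlgHom
  let L' : IntermediateField ℚ ℂ := φa.fieldRange
  let e : L ≃ₐ[ℚ] L' := AlgEquiv.ofInjectiveField φa
  have : Algebra.IsAlgebraic ℚ L' := e.isAlgebraic
  have hvL : IsTranscendenceBasis L v := embExt_isTranscendenceBasis hv L
  have hvL' : IsTranscendenceBasis L' v := embExt_isTranscendenceBasis hv L'
  have := IsAlgClosed.isAlgClosure_of_transcendence_basis v hvL
  have := IsAlgClosed.isAlgClosure_of_transcendence_basis v hvL'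
  let E : adjoin L (Set.range v) ≃+* adjoin L' (Set.range v) :=
    hvL.1.aevalEquiv.symm.toRingEquiv.trans
      ((MvPolynomial.mapEquiv ι e.toRingEquiv).trans hvL'.1.aevalEquiv.toRingEquiv)
  refine ⟨IsAlgClosure.equivOfEquiv ℂ ℂ E, fun x => ?_⟩
  have h := IsAlgClosure.equivOfEquiv_algebraMap ℂ ℂ E (algebraMap L _ x)
  have hE : E (algebraMap L _ x) = algebraMap L' _ (e x) := by
    show hvL'.1.aevalEquiv ((MvPolynomial.mapEquiv ι e.toRingEquiv)
      (hvL.1.aevalEquiv.symm (algebraMap L _ x))) = _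
    rw [AlgEquiv.commutes, MvPolynomial.algebraMap_eq, MvPolynomial.mapEquiv_apply,
      MvPolynomial.map_C, ← MvPolynomial.algebraMap_eq, AlgEquiv.commutes]
    rfl
  rw [hE] at h
  exact h

/-- the same, as a ring endomorphism of `ℂ`. -/
theorem exists_ringHom_extends (L : IntermediateField ℚ ℂ) [Algebra.IsAlgebraic ℚ L]
    (φ : L →+* ℂ) : ∃ τ : ℂ →+* ℂ, ∀ x : L, τ (x : ℂ) = φ x := by
  obtain ⟨τ, hτ⟩ := exists_ringEquiv_extends L φ
  exact ⟨τ.toRingHom, hτ⟩

/-- any two embeddings of a field `K` algebraic over `ℚ` into `ℂ` differ by a ring automorphism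
of `ℂ`. -/
theorem exists_ringEquiv_comp_eq {K : Type*} [Field K] [Algebra ℚ K] [Algebra.IsAlgebraic ℚ K]
    (σ₁ σ₂ : K →+* ℂ) : ∃ τ : ℂ ≃+* ℂ, ∀ x : K, τ (σ₁ x) = σ₂ x := by
  let s₁ : K →ₐ[ℚ] ℂ := σ₁.toRatAlgHom
  let e : K ≃ₐ[ℚ] s₁.fieldRange := AlgEquiv.ofInjectiveField s₁
  have : Algebra.IsAlgebraic ℚ s₁.fieldRange := e.isAlgebraic
  obtain ⟨τ, hτ⟩ := exists_ringEquiv_extends s₁.fieldRange (σ₂.comp e.symm.toRingEquiv.toRingHom)
  refine ⟨τ, fun x => ?_⟩
  have h := hτ (e x)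
  have h1 : ((e x : s₁.fieldRange) : ℂ) = σ₁ x := rfl
  rw [h1] at h
  rw [h]
  show σ₂ (e.symm (e x)) = σ₂ x
  rw [AlgEquiv.symm_apply_apply]

end Fermat.Agent.S48
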