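/-
S48 (Deligne-Serre), piece (P4): RANKIN'S BOUND.  helper8.

For `f ∈ S₁(Γ₁(N))` with `a 1 = 1` and the Hecke relations of S48 at the primes `p ∤ N`
(`a n = qCoeff f n`):
* `rankin_prod_le`    : `∏_{p ∈ T} (1 + ‖a p‖² p^{-s}) ≤ C s / (s - 1)`  (`T` finite set of primes
                         not dividing `N`, `s > 1`);
* `rankin_density_le` : if `‖a p‖² ≥ c > 0` on `T` then
                         `(∑_{p ∈ T} p^{-s}) log (1 + c) ≤ log (C s / (s - 1))`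
                         (the primes with large `a p` have upper Dirichlet density `≤ 1 / log (1 + c)`);
* `rankin_sharp_le`   : if `‖a p‖ ≤ 2` on `T` then
                         `∑_{p ∈ T} ‖a p‖² p^{-s} ≤ log (s / (s - 1)) + C'`.
The constants depend only on `f`.  Abstract versions: `rk_density_le`, `rk_sharp_le`.
-/
import Fermat.Agent.S48.Rankin.Bessel
import Fermat.Agent.S48.Rankin.Dirichlet

set_option autoImplicit false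

namespace Fermat.Agent.S48

open Finset

/-- `log (1 + x) ≥ x - x²` for `x ≥ 0`. -/
theorem rk_log_one_add_ge (x : ℝ) (hx : 0 ≤ x) : x - x ^ 2 ≤ Real.log (1 + x) := by
  have h1 : 0 < 1 + x := by linarith
  have h2 := Real.one_sub_inv_le_log_of_pos h1
  refine le_trans ?_ h2
  rw [sub_le_sub_iff, ← sub_nonneg]
  have h3 : 1 + x ^ 2 - (x + (1 + x)⁻¹) = x ^ 3 / (1 + x) := by
    field_simp
    ring
  rw [h3]
  positivity

section Abstract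

variable (a : ℕ → ℂ) (Pr : Set ℕ) (h1 : a 1 = 1)
  (hmul : ∀ p ∈ Pr, p.Prime → ∀ n : ℕ, ¬ p ∣ n → a (p * n) = a p * a n)
  (C : ℝ) (hC : 0 ≤ C) (hB : ∀ M, 1 ≤ M → ∑ n ∈ Icc 1 M, ‖a n‖ ^ 2 ≤ C * M)

include h1 hmul hC hB in
theorem rk_one_le (s : ℝ) (hs : 1 < s) : 1 ≤ C * (s / (s - 1)) := by
  have := rk_prod_le a Pr h1 hmul C hC hB ∅ (by simp) s hs
  simpa using this

include h1 hmul hC hB in
/-- Density form of Rankin's bound. -/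
theorem rk_density_le (c : ℝ) (hc : 0 < c) (T : Finset ℕ)
    (hT : ∀ p ∈ T, p.Prime ∧ p ∈ Pr ∧ c ≤ ‖a p‖ ^ 2) (s : ℝ) (hs : 1 < s) :
    (∑ p ∈ T, ((p : ℝ) ^ s)⁻¹) * Real.log (1 + c) ≤ Real.log (C * (s / (s - 1))) := by
  have hT' : ∀ p ∈ T, p.Prime ∧ p ∈ Pr := fun p hp => ⟨(hT p hp).1, (hT p hp).2.1⟩
  have h2 := rk_prod_le a Pr h1 hmul C hC hB T hT' s hs
  have hc1 : (0 : ℝ) < 1 + c := by linarith
  -- `(1 + c)^y ≤ 1 + c y` for `0 ≤ y ≤ 1`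
  have h3 : ∀ p ∈ T, (1 + c) ^ (((p : ℝ) ^ s)⁻¹) ≤ 1 + ‖a p‖ ^ 2 * ((p : ℝ) ^ s)⁻¹ := by
    intro p hp
    have hp1 : (1 : ℝ) ≤ p := by exact_mod_cast (hT p hp).1.one_lt.le
    have hy0 : 0 ≤ ((p : ℝ) ^ s)⁻¹ := by positivity
    have hy1 : ((p : ℝ) ^ s)⁻¹ ≤ 1 := by
      rw [inv_le_one₀ (by positivity)]
      exact Real.one_le_rpow hp1 (by linarith)
    have h4 := _root_.rpow_one_add_le_one_add_mul_self (s := c) (by linarith) hy0 hy1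
    refine h4.trans ?_
    have h5 := (hT p hp).2.2
    nlinarith
  have h6 : (1 + c) ^ (∑ p ∈ T, ((p : ℝ) ^ s)⁻¹) ≤ C * (s / (s - 1)) := by
    rw [Real.rpow_sum_of_pos hc1]
    exact (prod_le_prod (fun p _ => (Real.rpow_pos_of_pos hc1 _).le) h3).trans h2
  have h7 := Real.log_le_log (Real.rpow_pos_of_pos hc1 _) h6
  rwa [Real.log_rpow hc1] at h7

include h1 hmul hC hB in
/-- Sharp form of Rankin's bound, for bounded coefficients. -/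
theorem rk_sharp_le (A : ℝ) (T : Finset ℕ)
    (hT : ∀ p ∈ T, p.Prime ∧ p ∈ Pr ∧ ‖a p‖ ^ 2 ≤ A) (s : ℝ) (hs : 1 < s) :
    ∑ p ∈ T, ‖a p‖ ^ 2 * ((p : ℝ) ^ s)⁻¹ ≤ Real.log (C * (s / (s - 1))) + 2 * A ^ 2 := by
  classical
  have hT' : ∀ p ∈ T, p.Prime ∧ p ∈ Pr := fun p hp => ⟨(hT p hp).1, (hT p hp).2.1⟩
  have h2 := rk_prod_le a Pr h1 hmul C hC hB T hT' s hs
  have hpos : ∀ p ∈ T, (0 : ℝ) < 1 + ‖a p‖ ^ 2 * ((p : ℝ) ^ s)⁻¹ := fun p _ => by positivity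
  have h3 : ∑ p ∈ T, Real.log (1 + ‖a p‖ ^ 2 * ((p : ℝ) ^ s)⁻¹) ≤
      Real.log (C * (s / (s - 1))) := by
    rw [← Real.log_prod (fun p hp => (hpos p hp).ne')]
    exact Real.log_le_log (prod_pos hpos) h2
  have h4 : ∀ p ∈ T, ‖a p‖ ^ 2 * ((p : ℝ) ^ s)⁻¹ ≤
      Real.log (1 + ‖a p‖ ^ 2 * ((p : ℝ) ^ s)⁻¹) + A ^ 2 * ((p : ℝ) ^ (2 : ℝ))⁻¹ := by
    intro p hp
    have hp1 : (1 : ℝ) ≤ p := by exact_mod_cast (hT p hp).1.one_lt.le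
    have hp0 : (0 : ℝ) < p := by linarith
    have h5 := rk_log_one_add_ge (‖a p‖ ^ 2 * ((p : ℝ) ^ s)⁻¹) (by positivity)
    have h6 : (‖a p‖ ^ 2 * ((p : ℝ) ^ s)⁻¹) ^ 2 ≤ A ^ 2 * ((p : ℝ) ^ (2 : ℝ))⁻¹ := by
      rw [mul_pow]
      have h7 : (‖a p‖ ^ 2) ^ 2 ≤ A ^ 2 :=
        pow_le_pow_left₀ (by positivity) (hT p hp).2.2 2
      have h8 : (((p : ℝ) ^ s)⁻¹) ^ 2 ≤ ((p : ℝ) ^ (2 : ℝ))⁻¹ := by
        rw [inv_pow, inv_le_inv₀ (by positivity) (by positivity), Real.rpow_two]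
        have h9 : (p : ℝ) ≤ (p : ℝ) ^ s := by
          calc (p : ℝ) = (p : ℝ) ^ (1 : ℝ) := (Real.rpow_one _).symm
            _ ≤ (p : ℝ) ^ s := Real.rpow_le_rpow_of_exponent_le hp1 hs.le
        exact pow_le_pow_left₀ hp0.le h9 2
      exact mul_le_mul h7 h8 (by positivity) (by positivity)
    linarith
  have h10 : ∑ p ∈ T, ((p : ℝ) ^ (2 : ℝ))⁻¹ ≤ 2 := by
    have h11 : T ⊆ Icc 1 (∏ p ∈ T, p) := by
      intro p hp
      rw [mem_Icc]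
      have hposT : 0 < ∏ p ∈ T, p := prod_pos fun q hq => (hT q hq).1.pos
      exact ⟨(hT p hp).1.pos, Nat.le_of_dvd hposT (dvd_prod_of_mem _ hp)⟩
    refine (sum_le_sum_of_subset_of_nonneg h11 (fun n _ _ => by positivity)).trans ?_
    have := rk_sum_rpow_le 2 (by norm_num) (∏ p ∈ T, p)
    norm_num at this ⊢
    exact this
  calc ∑ p ∈ T, ‖a p‖ ^ 2 * ((p : ℝ) ^ s)⁻¹
      ≤ ∑ p ∈ T, (Real.log (1 + ‖a p‖ ^ 2 * ((p : ℝ) ^ s)⁻¹) + A ^ 2 * ((p : ℝ) ^ (2 : ℝ))⁻¹) :=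
        sum_le_sum h4
    _ = ∑ p ∈ T, Real.log (1 + ‖a p‖ ^ 2 * ((p : ℝ) ^ s)⁻¹) +
          A ^ 2 * ∑ p ∈ T, ((p : ℝ) ^ (2 : ℝ))⁻¹ := by
        rw [sum_add_distrib, mul_sum]
    _ ≤ Real.log (C * (s / (s - 1))) + A ^ 2 * 2 :=
        add_le_add h3 (mul_le_mul_of_nonneg_left h10 (sq_nonneg A))
    _ = Real.log (C * (s / (s - 1))) + 2 * A ^ 2 := by ring

end Abstract

section Forms

open CongruenceSubgroup ModularFormClass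
open scoped MatrixGroups

variable (N : ℕ) [NeZero N] (ε : DirichletCharacter ℂ N) (f : CuspForm (Gamma1 N) 1)
  (hf₁ : ModularFormClass.qCoeff f 1 = 1)
  (hT : ∀ p : ℕ, p.Prime → ¬ p ∣ N → ∀ n : ℕ,
      ModularFormClass.qCoeff f (p * n) +
          ε (p : ZMod N) * (if p ∣ n then ModularFormClass.qCoeff f (n / p) else 0) =
        ModularFormClass.qCoeff f p * ModularFormClass.qCoeff f n)

omit [NeZero N] in
include hT in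
theorem rk_hmul_of_hT : ∀ p ∈ {p : ℕ | ¬ p ∣ N}, p.Prime → ∀ n : ℕ, ¬ p ∣ n →
    qCoeff f (p * n) = qCoeff f p * qCoeff f n := by
  intro p hpN hp n hpn
  have h := hT p hp hpN n
  rwa [if_neg hpn, mul_zero, add_zero] at h

/-- The mean square bound in the form used by the abstract lemmas. -/
theorem rk_hB_Gamma1 : ∃ C : ℝ, 0 ≤ C ∧
    ∀ M, 1 ≤ M → ∑ n ∈ Icc 1 M, ‖qCoeff f n‖ ^ 2 ≤ C * M := by
  obtain ⟨C, hC0, hC⟩ := rk_sum_sq_le_Gamma1 N f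
  refine ⟨C, hC0, fun M hM => le_trans ?_ (hC M hM)⟩
  refine sum_le_sum_of_subset_of_nonneg ?_ (fun n _ _ => by positivity)
  intro n hn
  rw [mem_Icc] at hn
  rw [mem_range]
  omega

include hf₁ hT in
/-- **Rankin's bound**, Euler product form. -/
theorem rankin_prod_le : ∃ C : ℝ, 1 ≤ C ∧ ∀ T : Finset ℕ, (∀ p ∈ T, p.Prime ∧ ¬ p ∣ N) →
    ∀ s : ℝ, 1 < s →
      ∏ p ∈ T, (1 + ‖qCoeff f p‖ ^ 2 * ((p : ℝ) ^ s)⁻¹) ≤ C * (s / (s - 1)) := by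
  obtain ⟨C, hC0, hB⟩ := rk_hB_Gamma1 N f
  have hC1 : 1 ≤ C := by
    have := hB 1 le_rfl
    simpa [hf₁] using this
  exact ⟨C, hC1, fun T hTp s hs =>
    rk_prod_le (fun n => qCoeff f n) {p : ℕ | ¬ p ∣ N} hf₁ (rk_hmul_of_hT N ε f hT) C hC0 hB T
      hTp s hs⟩

include hf₁ hT in
/-- **Rankin's bound**, density form: the primes `p ∤ N` with `‖a p‖² ≥ c` have upper Dirichlet
density at most `1 / log (1 + c)`. -/
theorem rankin_density_le : ∃ C : ℝ, 1 ≤ C ∧ ∀ c : ℝ, 0 < c → ∀ T : Finset ℕ,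
    (∀ p ∈ T, p.Prime ∧ ¬ p ∣ N ∧ c ≤ ‖qCoeff f p‖ ^ 2) → ∀ s : ℝ, 1 < s →
      (∑ p ∈ T, ((p : ℝ) ^ s)⁻¹) * Real.log (1 + c) ≤
        Real.log C + Real.log (s / (s - 1)) := by
  obtain ⟨C, hC0, hB⟩ := rk_hB_Gamma1 N f
  have hC1 : 1 ≤ C := by
    have := hB 1 le_rfl
    simpa [hf₁] using this
  refine ⟨C, hC1, fun c hc T hTp s hs => ?_⟩
  have h := rk_density_le (fun n => qCoeff f n) {p : ℕ | ¬ p ∣ N} hf₁ (rk_hmul_of_hT N ε f hT)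
    C hC0 hB c hc T hTp s hs
  have hs1 : 0 < s / (s - 1) := div_pos (by linarith) (by linarith)
  rwa [Real.log_mul (by linarith) hs1.ne'] at h

include hf₁ hT in
/-- **Rankin's bound**, sharp form for bounded coefficients:
`∑_{p ∈ T} ‖a p‖² p^{-s} ≤ log (s / (s - 1)) + O(1)`. -/
theorem rankin_sharp_le : ∃ C : ℝ, ∀ T : Finset ℕ,
    (∀ p ∈ T, p.Prime ∧ ¬ p ∣ N ∧ ‖qCoeff f p‖ ≤ 2) → ∀ s : ℝ, 1 < s →
      ∑ p ∈ T, ‖qCoeff f p‖ ^ 2 * ((p : ℝ) ^ s)⁻¹ ≤ Real.log (s / (s - 1)) + C := by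
  obtain ⟨C, hC0, hB⟩ := rk_hB_Gamma1 N f
  have hC1 : 1 ≤ C := by
    have := hB 1 le_rfl
    simpa [hf₁] using this
  refine ⟨Real.log C + 2 * 4 ^ 2, fun T hTp s hs => ?_⟩
  have hTp' : ∀ p ∈ T, p.Prime ∧ p ∈ {p : ℕ | ¬ p ∣ N} ∧ ‖(fun n => qCoeff f n) p‖ ^ 2 ≤ 4 := by
    intro p hp
    refine ⟨(hTp p hp).1, (hTp p hp).2.1, ?_⟩
    have := (hTp p hp).2.2
    have h0 : 0 ≤ ‖qCoeff f p‖ := norm_nonneg _
    simp only
    nlinarith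
  have h := rk_sharp_le (fun n => qCoeff f n) {p : ℕ | ¬ p ∣ N} hf₁ (rk_hmul_of_hT N ε f hT)
    C hC0 hB 4 T hTp' s hs
  have hs1 : 0 < s / (s - 1) := div_pos (by linarith) (by linarith)
  rw [Real.log_mul (by linarith) hs1.ne'] at h
  linarith

end Forms

end Fermat.Agent.S48
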