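/-
S48 (Deligne–Serre), seat FV (helper67): finitely many values off a thin set.

`finiteValues_of : ConjStatement → IntegralStatement → FiniteValuesStatement`.

Proof (Deligne–Serre, §8): the `a_p` (`p ∤ N`) are algebraic integers in a number field `K`; let
`τ i` be finitely many automorphisms of `ℂ` inducing all embeddings of the normal closure of `K`
(`FV/Northcott.lean`).  Each conjugate `f^{τ i}` is a cusp form (`ConjStatement`) satisfying the
Hecke relations for `τ i ∘ ε`, so Rankin's bound (`rankin_density_le`) holds for it: the primes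
with `‖τ i (a_p)‖² ≥ c` have upper density `≤ 1 / log (1 + c)`.  Off the union `X` of these sets
the `a_p` lie in the finite set `Y` of Northcott.
-/
import Fermat.Agent.S48.Defs
import Fermat.Agent.S48.Rankin
import Fermat.Agent.S48.FV.Northcott

set_option autoImplicit false

noncomputable section

namespace Fermat.Agent.S48

open CongruenceSubgroup ModularFormClass

/-- The Hecke relations are stable under conjugation. -/
theorem fv_heckeRel_conj {N : ℕ} (ε : DirichletCharacter ℂ N) (a b : ℕ → ℂ) (τ : ℂ →+* ℂ)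
    (hb : ∀ n, b n = τ (a n)) (h : HeckeRel N ε a) : HeckeRel N (ε.ringHomComp τ) b := by
  refine ⟨by rw [hb, h.1, map_one], fun p hp hpN n => ?_⟩
  have h1 := congrArg τ (h.2 p hp hpN n)
  rw [map_add, map_mul, map_mul, apply_ite τ, map_zero] at h1
  simp only [hb, MulChar.ringHomComp_apply]
  exact h1

/-- Rankin's density bound for one conjugate. -/
theorem fv_rankin_conj (hC : ConjStatement) (N : ℕ) [NeZero N] (ε : DirichletCharacter ℂ N)
    (f : CuspForm (Gamma1 N) 1) (hf : HeckeRel N ε (fun n => qCoeff f n)) (τ : ℂ →+* ℂ) :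
    ∃ C : ℝ, 1 ≤ C ∧ ∀ c : ℝ, 0 < c → ∀ T : Finset ℕ,
      (∀ p ∈ T, p.Prime ∧ ¬ p ∣ N ∧ c ≤ ‖τ (qCoeff f p)‖ ^ 2) → ∀ s : ℝ, 1 < s →
        (∑ p ∈ T, ((p : ℝ) ^ s)⁻¹) * Real.log (1 + c) ≤
          Real.log C + Real.log (s / (s - 1)) := by
  obtain ⟨g, hg⟩ := hC N f τ
  have hrel := fv_heckeRel_conj ε (fun n => qCoeff f n) (fun n => qCoeff g n) τ hg hf
  obtain ⟨C, hC1, hCb⟩ := rankin_density_le N (ε.ringHomComp τ) g hrel.1 hrel.2
  refine ⟨C, hC1, fun c hc T hT s hs => hCb c hc T (fun p hp => ?_) s hs⟩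
  obtain ⟨h1, h2, h3⟩ := hT p hp
  exact ⟨h1, h2, by rw [hg]; exact h3⟩

/-- **(Stage II)** finitely many values off a set of small density. -/
theorem finiteValues_of (hC : ConjStatement) (hI : IntegralStatement) :
    FiniteValuesStatement := by
  classical
  intro N _ ε f hf η hη
  obtain ⟨hint, K, hKfin, hK⟩ := hI N ε f hf
  haveI := hKfin
  obtain ⟨ι, hι, hne, τ, hfinY⟩ := FV.exists_auts_northcott K
  -- Rankin for the conjugates
  have hR := fun i => fv_rankin_conj hC N ε f hf (τ i).toRingHom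
  choose Cσ hCσ1 hCσ using hR
  -- the threshold
  set r : ℝ := (Fintype.card ι : ℝ) with hr
  have hr0 : 0 < r := by
    rw [hr]
    exact_mod_cast Fintype.card_pos
  set c : ℝ := Real.exp (r / η) with hc
  have hc0 : 0 < c := Real.exp_pos _
  have hL : r / η ≤ Real.log (1 + c) := by
    have h1 : Real.log c ≤ Real.log (1 + c) := Real.log_le_log hc0 (by linarith)
    rwa [hc, Real.log_exp] at h1
  have hL0 : 0 < Real.log (1 + c) := lt_of_lt_of_le (div_pos hr0 hη) hL
  have hrL : r / Real.log (1 + c) ≤ η := by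
    rw [div_le_iff₀ hL0]
    have := (div_le_iff₀ hη).mp hL
    linarith
  refine ⟨(hfinY c).toFinset,
    {p | p.Prime ∧ ¬ p ∣ N ∧ ∃ i, c ≤ ‖τ i (qCoeff f p)‖ ^ 2}, ?_, ?_⟩
  · -- the density bound
    refine ⟨(∑ i, Real.log (Cσ i) + r * Real.log 2) / Real.log (1 + c),
      fun s hs1 hs2 F hF => ?_⟩
    have hw : ∀ p : ℕ, (0 : ℝ) ≤ ((p : ℝ) ^ s)⁻¹ := fun p => by positivity
    have hrw : ∀ p : ℕ, (p : ℝ) ^ (-s) = ((p : ℝ) ^ s)⁻¹ := fun p =>
      Real.rpow_neg (Nat.cast_nonneg p) s
    simp only [hrw]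
    -- split `F` according to the conjugate which is large
    have h1 : ∑ p ∈ F, ((p : ℝ) ^ s)⁻¹ ≤
        ∑ i, ∑ p ∈ F.filter (fun p => c ≤ ‖τ i (qCoeff f p)‖ ^ 2), ((p : ℝ) ^ s)⁻¹ := by
      simp only [Finset.sum_filter]
      rw [Finset.sum_comm]
      refine Finset.sum_le_sum fun p hp => ?_
      obtain ⟨-, -, -, i, hi⟩ := hF p hp
      refine le_trans ?_ (Finset.single_le_sum (f := fun j =>
        if c ≤ ‖τ j (qCoeff f p)‖ ^ 2 then ((p : ℝ) ^ s)⁻¹ else 0)
        (fun j _ => by
          show (0 : ℝ) ≤ if c ≤ ‖τ j (qCoeff f p)‖ ^ 2 then ((p : ℝ) ^ s)⁻¹ else 0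
          split_ifs
          · exact hw p
          · exact le_rfl) (Finset.mem_univ i))
      show ((p : ℝ) ^ s)⁻¹ ≤ if c ≤ ‖τ i (qCoeff f p)‖ ^ 2 then ((p : ℝ) ^ s)⁻¹ else 0
      rw [if_pos hi]
    -- Rankin for each piece
    have h2 : ∀ i, ∑ p ∈ F.filter (fun p => c ≤ ‖τ i (qCoeff f p)‖ ^ 2), ((p : ℝ) ^ s)⁻¹
        ≤ (Real.log (Cσ i) + Real.log (s / (s - 1))) / Real.log (1 + c) := by
      intro i
      rw [le_div_iff₀ hL0]
      refine hCσ i c hc0 _ (fun p hp => ?_) s hs1
      rw [Finset.mem_filter] at hp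
      obtain ⟨h3, -, h4, -⟩ := hF p hp.1
      exact ⟨h3, h4, hp.2⟩
    have h5 : Real.log (s / (s - 1)) ≤ Real.log 2 + Real.log (1 / (s - 1)) := by
      have hs0 : 0 < s - 1 := by linarith
      rw [div_eq_mul_one_div s (s - 1), Real.log_mul (by linarith) (by positivity)]
      have : Real.log s ≤ Real.log 2 := Real.log_le_log (by linarith) hs2.le
      linarith
    have h6 : 0 ≤ Real.log (1 / (s - 1)) := by
      apply Real.log_nonneg
      rw [le_div_iff₀ (by linarith)]
      linarith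
    calc ∑ p ∈ F, ((p : ℝ) ^ s)⁻¹
        ≤ ∑ i, (Real.log (Cσ i) + Real.log (s / (s - 1))) / Real.log (1 + c) :=
          h1.trans (Finset.sum_le_sum fun i _ => h2 i)
      _ = (∑ i, Real.log (Cσ i) + r * Real.log (s / (s - 1))) / Real.log (1 + c) := by
          rw [← Finset.sum_div, Finset.sum_add_distrib, Finset.sum_const, Finset.card_univ,
            nsmul_eq_mul]
      _ ≤ (∑ i, Real.log (Cσ i) + r * (Real.log 2 + Real.log (1 / (s - 1))))
            / Real.log (1 + c) := by
          apply div_le_div_of_nonneg_right _ hL0.le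
          have := mul_le_mul_of_nonneg_left h5 hr0.le
          linarith
      _ = r / Real.log (1 + c) * Real.log (1 / (s - 1))
            + (∑ i, Real.log (Cσ i) + r * Real.log 2) / Real.log (1 + c) := by
          field_simp
          ring
      _ ≤ η * Real.log (1 / (s - 1))
            + (∑ i, Real.log (Cσ i) + r * Real.log 2) / Real.log (1 + c) := by
          have := mul_le_mul_of_nonneg_right hrL h6
          linarith
  · -- the values
    intro p hp hpN hpX
    rw [Set.Finite.mem_toFinset]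
    refine ⟨hK p hp hpN, hint p hp hpN, fun i => ?_⟩
    by_contra hcon
    exact hpX ⟨hp, hpN, i, not_lt.mp hcon⟩

end Fermat.Agent.S48
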