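import Fermat.Agent.S48.Defs
import Fermat.Agent.S48.Rankin
import Fermat.Agent.S48.Irred.Char
import Fermat.Agent.S48.Irred.Density
import Fermat.Agent.Lib.Frobenius.Exists

/-!
# S48 (IRR): irreducibility of the Deligne–Serre representation

`irred_of : ChebotarevStatement → IrredStatement`.

If `ρ` (finite image `G`) had an invariant line, then `tr ρ = χ + ψ` for two characters of `G`,
so `‖tr g‖ ≤ 2` and `∑_g ‖tr g‖² ≥ 2 |G|`.  Chebotarev (for the level sets of `‖tr‖²`, which are
stable under conjugation and inversion) gives `∑_{p} ‖a_p‖² p^{-s} ≥ (2 - 1/2) log (1/(s-1)) - C`,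
against the sharp Rankin bound `≤ log (1/(s-1)) + C'`.
-/

set_option autoImplicit false
set_option linter.style.haveILetI false

open CongruenceSubgroup

namespace Fermat.Agent.S48.Irr

local notation "Γℚ" => (AlgebraicClosure ℚ ≃ₐ[ℚ] AlgebraicClosure ℚ)

/-- A homomorphism factoring through a finite level has finite range. -/
theorem finite_range_of_factors {M : Type} [Group M] (ρ : Γℚ →* M)
    (h : GaloisFactorsThroughFiniteLevel ρ) : Finite ρ.range := by
  classical
  obtain ⟨L, hL, hρ⟩ := h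
  let res : Γℚ → (L →ₐ[ℚ] AlgebraicClosure ℚ) := fun σ =>
    (σ : AlgebraicClosure ℚ →ₐ[ℚ] AlgebraicClosure ℚ).comp L.val
  have hfac : ∀ σ τ, res σ = res τ → ρ σ = ρ τ := by
    intro σ τ hst
    have h1 : ρ (τ⁻¹ * σ) = 1 := by
      apply hρ
      intro x hx
      have h2 : σ x = τ x := by
        exact DFunLike.congr_fun hst ⟨x, hx⟩
      show τ⁻¹ (σ x) = x
      rw [h2]
      exact τ.symm_apply_apply x
    rw [map_mul, map_inv] at h1
    exact (inv_mul_eq_one.mp h1).symm
  have : Finite (L →ₐ[ℚ] AlgebraicClosure ℚ) := inferInstance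
  have hfin : (Set.range ρ).Finite := by
    have : Set.range ρ = Set.range (fun x : Set.range res => ρ x.2.choose) := by
      ext m
      constructor
      · rintro ⟨σ, rfl⟩
        exact ⟨⟨res σ, σ, rfl⟩, hfac _ _ (Exists.choose_spec (⟨σ, rfl⟩ : ∃ y, res y = res σ))⟩
      · rintro ⟨x, rfl⟩
        exact ⟨_, rfl⟩
    rw [this]
    exact Set.finite_range _
  rw [← MonoidHom.coe_range] at hfin
  exact hfin.to_subtype

/-- The core: no invariant line. -/
theorem no_invariant_line (hP5 : ChebotarevStatement) (N : ℕ) [NeZero N]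
    (ε : DirichletCharacter ℂ N) (f : CuspForm (Gamma1 N) 1)
    (hf : HeckeRel N ε (fun n => ModularFormClass.qCoeff f n))
    (ρ : Γℚ →* GL (Fin 2) ℂ) (hfin : GaloisFactorsThroughFiniteLevel ρ)
    (htr : ∀ p : ℕ, p.Prime → ¬ p ∣ N →
        ∀ A : ValuationSubring (AlgebraicClosure ℚ), A.LiesOverPrime p →
          ∀ σ : Γℚ, A.IsFrobeniusAt σ p →
            ((ρ σ : GL (Fin 2) ℂ) : Matrix (Fin 2) (Fin 2) ℂ).trace
              = ModularFormClass.qCoeff f p)
    (v : Fin 2 → ℂ) (hv : v ≠ 0)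
    (hinv : ∀ σ : Γℚ, ∃ c : ℂ,
      ((ρ σ : GL (Fin 2) ℂ) : Matrix (Fin 2) (Fin 2) ℂ).mulVec v = c • v) : False := by
  classical
  haveI : Finite ρ.range := finite_range_of_factors ρ hfin
  letI : Fintype ρ.range := Fintype.ofFinite _
  set ι : ρ.range →* GL (Fin 2) ℂ := ρ.range.subtype with hι
  set r : Γℚ →* ρ.range := ρ.rangeRestrict with hr
  have hsurj : Function.Surjective r := ρ.rangeRestrict_surjective
  have hfact : GaloisFactorsThroughFiniteLevel r := by
    obtain ⟨L, hL, hρ⟩ := hfin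
    exact ⟨L, hL, fun σ hσ => Subtype.ext (hρ σ hσ)⟩
  have hinv' : ∀ g : ρ.range, ∃ c : ℂ,
      ((ι g : GL (Fin 2) ℂ) : Matrix (Fin 2) (Fin 2) ℂ).mulVec v = c • v := by
    rintro ⟨_, σ, rfl⟩
    exact hinv σ
  choose c hc using hinv'
  have hιr : ∀ σ, ι (r σ) = ρ σ := fun σ => rfl
  refine density_contra (G := ρ.range) (fun g => ‖tr ι g‖ ^ 2) (fun g => by positivity)
    (fun g => ?_) (two_card_le_sum hv hc) N (NeZero.ne N)
    (fun x => frobPrimes r {g | ‖tr ι g‖ ^ 2 = x})
    (fun p => ‖ModularFormClass.qCoeff f p‖ ^ 2) ?_ ?_ ?_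
  · have h := norm_tr_le hv hc g
    have h0 := norm_nonneg (tr ι g)
    nlinarith
  · intro x
    refine hP5 ρ.range r hsurj hfact {g | ‖tr ι g‖ ^ 2 = x} ?_ ?_
    · intro g h hg
      simp only [Set.mem_ofPred_eq] at hg ⊢
      rw [tr_conj, hg]
    · intro g hg
      simp only [Set.mem_ofPred_eq] at hg ⊢
      rw [norm_tr_inv hv hc, hg]
  · intro x p hp hpp hpN
    obtain ⟨A, σ, hA, hσ⟩ := Fermat.Agent.FrobExists.exists_frobenius p hpp
    have h1 := hp.2 A hA σ hσ
    simp only [Set.mem_ofPred_eq] at h1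
    rw [← h1]
    have h2 := htr p hpp hpN A hA σ hσ
    show ‖ModularFormClass.qCoeff f p‖ ^ 2 = ‖tr ι (r σ)‖ ^ 2
    rw [← h2]
    rfl
  · obtain ⟨C, hC⟩ := rankin_sharp_le N ε f hf.1 hf.2
    refine ⟨C, fun T hT s hs => hC T (fun p hp => ⟨(hT p hp).1, (hT p hp).2.1, ?_⟩) s hs⟩
    have h := (hT p hp).2.2
    have h0 := norm_nonneg (ModularFormClass.qCoeff f p)
    by_contra hcon
    rw [not_le] at hcon
    nlinarith

end Fermat.Agent.S48.Irr

namespace Fermat.Agent.S48

local notation "Γℚ" => (AlgebraicClosure ℚ ≃ₐ[ℚ] AlgebraicClosure ℚ)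

/-- **(IRR)** from Chebotarev. -/
theorem irred_of (hP5 : ChebotarevStatement) : IrredStatement := by
  intro N _ ε f hf ρ hfin htr
  refine { exists_pair_ne := ⟨⊥, ⊤, ?_⟩, eq_bot_or_eq_top := fun W => ?_ }
  · intro h
    have h1 : (⊥ : Subrepresentation (Deformation.matrixRepresentation ρ)).toSubmodule
        = (⊤ : Subrepresentation (Deformation.matrixRepresentation ρ)).toSubmodule := by
      rw [h]
    exact bot_ne_top h1
  · by_contra hW
    rw [not_or] at hW
    obtain ⟨hbot, htop⟩ := hW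
    have hbot' : W.toSubmodule ≠ ⊥ := fun h => hbot (Subrepresentation.toSubmodule_injective h)
    have htop' : W.toSubmodule ≠ ⊤ := fun h => htop (Subrepresentation.toSubmodule_injective h)
    have hlt : Module.finrank ℂ W.toSubmodule < 2 := by
      have := Submodule.finrank_lt htop'
      simpa using this
    have hle : Module.finrank ℂ W.toSubmodule ≤ 1 := by omega
    obtain ⟨v₀, hv₀⟩ := finrank_le_one_iff.mp hle
    have hv₀ne : (v₀ : Fin 2 → ℂ) ≠ 0 := by
      intro h0
      apply hbot'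
      rw [Submodule.eq_bot_iff]
      intro x hx
      obtain ⟨a, ha⟩ := hv₀ ⟨x, hx⟩
      have := congrArg Subtype.val ha
      simp only [Submodule.coe_smul, h0, smul_zero] at this
      exact this.symm
    refine Irr.no_invariant_line hP5 N ε f hf ρ hfin htr (v₀ : Fin 2 → ℂ) hv₀ne (fun σ => ?_)
    have hmem := W.apply_mem_toSubmodule σ v₀.2
    obtain ⟨a, ha⟩ := hv₀ ⟨_, hmem⟩
    refine ⟨a, ?_⟩
    have := congrArg Subtype.val ha
    simp only [Submodule.coe_smul, Deformation.matrixRepresentation_apply,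
      Matrix.mulVecLin_apply] at this
    exact this.symm

end Fermat.Agent.S48
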