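import Mathlib
import Fermat.Agent.S48.Defs
import Fermat.Agent.S48.W.Interfaces
import Fermat.Agent.S48.W.ProductDefs

/-!
# S48, seat MODL: the wall `S48W.WallStatement` in consumer form

`modL_of : S48W.WallStatement → NebStatement → AlgStatement → IntegralStatement → ModLStatement`
and the same from the wall for `ℓ ≥ ℓ₀` only, `modL_of_from ℓ₀ : S48W.WallStatementFrom ℓ₀ → ...`
(helper22).  Pure wiring:

* `AlgStatement` gives a nonzero eigenvector `g` with algebraic integer coefficients in a number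
  field and the same eigenvalues `a_p` as `f`;
* `NebStatement` gives the nebentypus of `g`;
* `IntegralStatement` gives the integrality of the `a_p`;
* the Dirichlet character `ε` is made `(ℤ/N)ˣ →* ℤ̄ˣ` (its values are roots of unity);
* the exceptional set is the set of the primes dividing `2 N` (and the `ℓ < ℓ₀`).
-/

set_option autoImplicit false

open CongruenceSubgroup Polynomial
open scoped MatrixGroups ModularForm

namespace Fermat.Agent.S48.ModLSeat

local notation "Γℚ" => (AlgebraicClosure ℚ ≃ₐ[ℚ] AlgebraicClosure ℚ)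
local notation "Zb" => integralClosure ℤ ℂ

/-- A unit of finite order of `ℂ` is integral over `ℤ`. -/
theorem isIntegral_of_pow_eq_one (x : ℂ) (n : ℕ) (hn : 0 < n) (h : x ^ n = 1) :
    IsIntegral ℤ x := by
  refine ⟨Polynomial.X ^ n - 1, Polynomial.monic_X_pow_sub_C (1 : ℤ) hn.ne', ?_⟩
  simp [h]

/-- The values of a Dirichlet character on the units are integral. -/
theorem isIntegral_dirichlet {N : ℕ} [NeZero N] (ε : DirichletCharacter ℂ N) (d : (ZMod N)ˣ) :
    IsIntegral ℤ (ε (d : ZMod N)) := by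
  have hfin : orderOf d ≠ 0 := (orderOf_pos d).ne'
  refine isIntegral_of_pow_eq_one _ (orderOf d) (orderOf_pos d) ?_
  rw [← map_pow, ← Units.val_pow_eq_pow_val, pow_orderOf_eq_one]
  simp

/-- The Dirichlet character `ε` as a homomorphism `(ℤ/N)ˣ →* ℤ̄`. -/
noncomputable def charZb {N : ℕ} [NeZero N] (ε : DirichletCharacter ℂ N) : (ZMod N)ˣ →* Zb where
  toFun d := ⟨ε (d : ZMod N), isIntegral_dirichlet ε d⟩
  map_one' := by
    apply Subtype.ext
    simp
  map_mul' d e := by
    apply Subtype.ext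
    simp

/-- The Dirichlet character `ε` as a homomorphism `(ℤ/N)ˣ →* ℤ̄ˣ`. -/
noncomputable def charZbUnits {N : ℕ} [NeZero N] (ε : DirichletCharacter ℂ N) :
    (ZMod N)ˣ →* Zbˣ :=
  (charZb ε).toHomUnits

theorem charZbUnits_coe {N : ℕ} [NeZero N] (ε : DirichletCharacter ℂ N) (d : (ZMod N)ˣ) :
    (((charZbUnits ε d : Zbˣ) : Zb) : ℂ) = ε (d : ZMod N) := rfl

theorem unitOfCoprime_coe_eq {N : ℕ} (p : ℕ) (h : Nat.Coprime p N) :
    ((ZMod.unitOfCoprime p h : (ZMod N)ˣ) : ZMod N) = (p : ZMod N) :=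
  ZMod.coe_unitOfCoprime p h

/-- **MODL** from the wall for `ℓ ≥ ℓ₀`. -/
theorem modL_of_from (ℓ₀ : ℕ) (hW : Fermat.Agent.S48W.WallStatementFrom ℓ₀)
    (hNeb : NebStatement) (hAlg : AlgStatement) (hInt : IntegralStatement) : ModLStatement := by
  classical
  intro N _ ε f hf
  obtain ⟨g, c, hc, hne, hK, hrel⟩ := hAlg N ε f hf
  obtain ⟨hint, -⟩ := hInt N ε f hf
  -- the eigenvalues in `ℤ̄`
  let a : ℕ → Zb := fun p =>
    if h : IsIntegral ℤ (ModularFormClass.qCoeff f p) then ⟨_, h⟩ else 0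
  have ha : ∀ p : ℕ, p.Prime → ¬ p ∣ N → (a p : ℂ) = ModularFormClass.qCoeff f p := by
    intro p hp hpN
    simp only [a, dif_pos (hint p hp hpN)]
  -- nebentypus of `g`
  have hU : UHeckeRel N ε (fun p => ModularFormClass.qCoeff f p)
      (fun n => ModularFormClass.qCoeff g n) := by
    intro p hp hpN n
    have := hrel p hp hpN n
    simpa only [hc] using this
  have hneb := hNeb N ε g (fun p => ModularFormClass.qCoeff f p) hU
  refine ⟨(2 * N).primeFactors ∪ Finset.range ℓ₀, fun ℓ hℓ hℓS k _ _ _ φ => ?_⟩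
  have hℓ2N : ¬ ℓ ∣ 2 * N := fun h =>
    hℓS (Finset.mem_union_left _
      (Nat.mem_primeFactors.2 ⟨hℓ, h, mul_ne_zero two_ne_zero (NeZero.ne N)⟩))
  have hℓ₀ : ℓ₀ ≤ ℓ := by
    by_contra hlt
    exact hℓS (Finset.mem_union_right _ (Finset.mem_range.2 (not_le.1 hlt)))
  obtain ⟨ρ, hur, hfrob⟩ := hW N (charZbUnits ε) g c a hc hne hK
    (by
      intro γ hγ d hd z
      rw [charZbUnits_coe, hd]
      exact hneb γ hγ z)
    (by
      intro p hp hcop n
      have hpN : ¬ p ∣ N := (Nat.Prime.coprime_iff_not_dvd hp).1 hcop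
      apply Subtype.ext
      have := hrel p hp hpN n
      push_cast
      rw [ha p hp hpN, charZbUnits_coe, unitOfCoprime_coe_eq]
      by_cases hpn : p ∣ n
      · simpa only [if_pos hpn] using this
      · simpa only [if_neg hpn, ZeroMemClass.coe_zero] using this)
    ℓ hℓ hℓ2N hℓ₀ k φ
  refine ⟨ρ, fun p hp hpNℓ => ⟨hur p hp hpNℓ, fun A hA σ hσ => ?_⟩⟩
  have hpN : ¬ p ∣ N := fun h => hpNℓ (h.mul_right ℓ)
  have hpℓ : p ≠ ℓ := fun h => hpNℓ (h ▸ dvd_mul_left _ _)
  have hcop : Nat.Coprime p N := (Nat.Prime.coprime_iff_not_dvd hp).2 hpN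
  refine ⟨a p, (charZbUnits ε (ZMod.unitOfCoprime p hcop) : Zbˣ), ha p hp hpN, ?_,
    hfrob p hp hcop hpℓ A hA σ hσ⟩
  rw [charZbUnits_coe, unitOfCoprime_coe_eq]

/-- **MODL**: the wall in consumer form. -/
theorem modL_of (hW : Fermat.Agent.S48W.WallStatement) (hNeb : NebStatement)
    (hAlg : AlgStatement) (hInt : IntegralStatement) : ModLStatement :=
  modL_of_from 0
    (fun N _ ε f c a hc hne hK hneb hT ℓ hℓ hℓN _ k _ _ φ =>
      hW N ε f c a hc hne hK hneb hT ℓ hℓ hℓN k φ)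
    hNeb hAlg hInt

end Fermat.Agent.S48.ModLSeat
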