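import Fermat.Agent.S48.Assembly
import Fermat.Agent.S48.ModL
import Fermat.Agent.S48.Bnd
import Fermat.Agent.S48.Irred
import Fermat.Agent.S48.FiniteValues
import Fermat.Agent.S48.Conj
import Fermat.Agent.S48.End.Main

/-!
# S48 (Deligne–Serre): the final wiring of the DS-specific part (helper22)

`dsResult_of_leaves`: the statement of S48 from the leaves which are still open:

* `S48W.WallStatementFrom ℓ₀` (the wall, helper93),
* `NebStatement` (P1), `IntStructStatement` (S23G1), `IntegralStatement`, `AlgStatement` (P3),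
* `ChebotarevStatement` (P5).

Everything else (Rankin, bounded image, finitely many values, the endgame, irreducibility) is
proved.
-/

set_option autoImplicit false

open CongruenceSubgroup

namespace Fermat.Agent.S48

local notation "Γℚ" => (AlgebraicClosure ℚ ≃ₐ[ℚ] AlgebraicClosure ℚ)

/-- `ComplexRepStatement` from the open leaves. -/
theorem complexRep_of_leaves (ℓ₀ : ℕ) (hW : Fermat.Agent.S48W.WallStatementFrom ℓ₀)
    (hNeb : NebStatement) (hIS : IntStructStatement) (hInt : IntegralStatement)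
    (hAlg : AlgStatement) (hP5 : ChebotarevStatement) : ComplexRepStatement :=
  Endgame.complexRepStatement_of
    (Bnd.boundedStatement_of (ModLSeat.modL_of_from ℓ₀ hW hNeb hAlg hInt)
      (finiteValues_of (conj_of hIS) hInt) hP5)

/-- The statement of S48 from the open leaves. -/
theorem dsResult_of_leaves (ℓ₀ : ℕ) (hW : Fermat.Agent.S48W.WallStatementFrom ℓ₀)
    (hNeb : NebStatement) (hIS : IntStructStatement) (hInt : IntegralStatement)
    (hAlg : AlgStatement) (hP5 : ChebotarevStatement)
    (N : ℕ) [NeZero N] (ε : DirichletCharacter ℂ N) (f : CuspForm (Gamma1 N) 1)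
    (hf₁ : ModularFormClass.qCoeff f 1 = 1)
    (hT : ∀ p : ℕ, p.Prime → ¬ p ∣ N → ∀ n : ℕ,
        ModularFormClass.qCoeff f (p * n) +
            ε (p : ZMod N) * (if p ∣ n then ModularFormClass.qCoeff f (n / p) else 0) =
          ModularFormClass.qCoeff f p * ModularFormClass.qCoeff f n) :
    ∃ ρ : Γℚ →* GL (Fin 2) ℂ, GaloisFactorsThroughFiniteLevel ρ ∧
      (Deformation.matrixRepresentation ρ).IsIrreducible ∧
      ∀ p : ℕ, p.Prime → ¬ p ∣ N →
        ∀ A : ValuationSubring (AlgebraicClosure ℚ), A.LiesOverPrime p →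
          (∀ σ ∈ A.inertiaSubgroupIn ℚ, ρ σ = 1) ∧
          ∀ σ : Γℚ, A.IsFrobeniusAt σ p →
            ((ρ σ : GL (Fin 2) ℂ) : Matrix (Fin 2) (Fin 2) ℂ).trace = ModularFormClass.qCoeff f p ∧
            ((ρ σ : GL (Fin 2) ℂ) : Matrix (Fin 2) (Fin 2) ℂ).det = ε (p : ZMod N) :=
  dsResult_of (complexRep_of_leaves ℓ₀ hW hNeb hIS hInt hAlg hP5) (irred_of hP5) N ε f hf₁ hT

end Fermat.Agent.S48
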