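/-
S48 (Deligne–Serre), seat INT (owner helper98): integrality.

`integralStatement_of : IntStructStatement → IntegralStatement`: if `S₁(Γ₁(N))` is spanned by forms
with integer `q`-coefficients, then the Hecke eigenvalues `a_p` (`p ∤ N`) of a normalised
eigen-sequence are algebraic integers and generate a number field.
(`ConjStatement` is not needed: the conjugates are taken on the level of sequences.)
-/
import Mathlib
import Fermat.Agent.S48.Int.Field

set_option autoImplicit false

namespace Fermat.Agent.S48

open CongruenceSubgroup

/-- **INT**: integrality of the eigenvalues, and the number field. -/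
theorem integralStatement_of (hIS : IntStructStatement) : IntegralStatement := by
  intro N _ ε f hH
  obtain ⟨r, x, m, ham⟩ := Fermat.Agent.S48Int.int_exists_decomp hIS N f
  have hint : ∀ p : ℕ, p.Prime → ¬ p ∣ N → IsIntegral ℤ (ModularFormClass.qCoeff (⇑f) p) :=
    fun p hp hpN => Fermat.Agent.S48Int.int_isIntegral N ε _ hH x m ham hp hpN
  exact ⟨hint, Fermat.Agent.S48Int.int_exists_field hH x m ham hint⟩

end Fermat.Agent.S48
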