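import Fermat.Agent.S48.Final
import Fermat.Agent.S48.Neb.Final
import Fermat.Agent.S48.Integral
import Fermat.Agent.S48.Alg
import Fermat.Agent.S48.G1.Main

/-!
# S48 (Deligne–Serre): the statement from the three leaves which are still open (helper22)

`dsResult_of_three ℓ₀ : S48W.WallStatementFrom ℓ₀ → S48G1.ThetaStatement → ChebotarevStatement →
[statement of S48]`.

* `S48W.WallStatementFrom ℓ₀`: the wall (mod-`ℓ` representations, helper93);
* `S48G1.ThetaStatement`: the primitive elements of `Γ₁(N)` (THETA1, helper92 + helper1);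
* `ChebotarevStatement`: P5 (helper8).
-/

set_option autoImplicit false

open CongruenceSubgroup

namespace Fermat.Agent.S48

local notation "Γℚ" => (AlgebraicClosure ℚ ≃ₐ[ℚ] AlgebraicClosure ℚ)

/-- The statement of S48 from the wall, the primitive elements and Chebotarev. -/
theorem dsResult_of_three (ℓ₀ : ℕ) (hW : Fermat.Agent.S48W.WallStatementFrom ℓ₀)
    (hθ : Fermat.Agent.S48G1.ThetaStatement) (hP5 : ChebotarevStatement)
    (N : ℕ) [NeZero N] (ε : DirichletCharacter ℂ N) (f : CuspForm (Gamma1 N) 1)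
    (hf₁ : ModularFormClass.qCoeff f 1 = 1)
    (hT : ∀ p : ℕ, p.Prime → ¬ p ∣ N → ∀ n : ℕ,
        ModularFormClass.qCoeff f (p * n) +
            ε (p : ZMod N) * (if p ∣ n then ModularFormClass.qCoeff f (n / p) else 0) =
          ModularFormClass.qCoeff f p * ModularFormClass.qCoeff f n) :
    ∃ ρ : Γℚ →* GL (Fin 2) ℂ, GaloisFactorsThroughFiniteLevel ρ ∧
      (Deformation.matrixRepresentation ρ).IsIrreducible ∧
      ∀ p : ℕ, p.Prime → ¬ p ∣ N →
        ∀ A : ValuationSubring (AlgebraicClosure ℚ), A.LiesOverPrime p →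
          (∀ σ ∈ A.inertiaSubgroupIn ℚ, ρ σ = 1) ∧
          ∀ σ : Γℚ, A.IsFrobeniusAt σ p →
            ((ρ σ : GL (Fin 2) ℂ) : Matrix (Fin 2) (Fin 2) ℂ).trace = ModularFormClass.qCoeff f p ∧
            ((ρ σ : GL (Fin 2) ℂ) : Matrix (Fin 2) (Fin 2) ℂ).det = ε (p : ZMod N) :=
  have hIS : IntStructStatement := Fermat.Agent.S48G1.intStruct_of_theta hθ
  have hInt : IntegralStatement := integralStatement_of hIS
  dsResult_of_leaves ℓ₀ hW nebStatement hIS hInt (alg_of hIS hInt) hP5 N ε f hf₁ hT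

end Fermat.Agent.S48
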