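import Fermat.Agent.S48.Wire3
import Fermat.Agent.S48.W.Final
import Fermat.Agent.S48.W.A.Top

/-!
# S48 (Deligne–Serre): the FRONTIER (helper22)

The statement of S48 from the propositions of the wall (W) which are still open, on top of
helper93's `S48WFinal.wallStatementFrom_of_leaves`:

* `dsResult_of_leavesW` : from `IgusaOneStatement`, `GoodRedOne M` and `NormProductOne M` at the
  levels `M` with `4 ∣ M` or `9 ∣ M`, and (IF-A) `EigenclassOneAt M ℓ`;
* `dsResult_of_blocks` : the same with (IF-A) in the form `EigenclassOne M` (`5 ≤ M`), which is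
  the deliverable of block A (`S48WA.eigenclassOne_top'`).
-/

set_option autoImplicit false

open CongruenceSubgroup

namespace Fermat.Agent.S48

local notation "Γℚ" => (AlgebraicClosure ℚ ≃ₐ[ℚ] AlgebraicClosure ℚ)

/-- The statement of S48 from the open leaves of the wall. -/
theorem dsResult_of_leavesW (hIg : Fermat.Agent.S48WG.IgusaOneStatement)
    (hGR : ∀ (M : ℕ) [NeZero M], (4 ∣ M ∨ 9 ∣ M) → Fermat.Agent.S48WG.GoodRedOne M)
    (hNP : ∀ (M : ℕ) [NeZero M], (4 ∣ M ∨ 9 ∣ M) → Fermat.Agent.S48WPort.NormProductOne M)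
    (hE : ∀ (M : ℕ) [NeZero M] (ℓ : ℕ), ℓ.Prime → 5 ≤ ℓ → ℓ ∣ M →
      Fermat.Agent.S48W.EigenclassOneAt M ℓ)
    (N : ℕ) [NeZero N] (ε : DirichletCharacter ℂ N) (f : CuspForm (Gamma1 N) 1)
    (hf₁ : ModularFormClass.qCoeff f 1 = 1)
    (hT : ∀ p : ℕ, p.Prime → ¬ p ∣ N → ∀ n : ℕ,
        ModularFormClass.qCoeff f (p * n) +
            ε (p : ZMod N) * (if p ∣ n then ModularFormClass.qCoeff f (n / p) else 0) =
          ModularFormClass.qCoeff f p * ModularFormClass.qCoeff f n) :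
    ∃ ρ : Γℚ →* GL (Fin 2) ℂ, GaloisFactorsThroughFiniteLevel ρ ∧
      (Deformation.matrixRepresentation ρ).IsIrreducible ∧
      ∀ p : ℕ, p.Prime → ¬ p ∣ N →
        ∀ A : ValuationSubring (AlgebraicClosure ℚ), A.LiesOverPrime p →
          (∀ σ ∈ A.inertiaSubgroupIn ℚ, ρ σ = 1) ∧
          ∀ σ : Γℚ, A.IsFrobeniusAt σ p →
            ((ρ σ : GL (Fin 2) ℂ) : Matrix (Fin 2) (Fin 2) ℂ).trace = ModularFormClass.qCoeff f p ∧
            ((ρ σ : GL (Fin 2) ℂ) : Matrix (Fin 2) (Fin 2) ℂ).det = ε (p : ZMod N) :=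
  dsResult_of_wall 5 (Fermat.Agent.S48WFinal.wallStatementFrom_of_leaves hIg hGR hNP hE)
    N ε f hf₁ hT

/-- The statement of S48 from the deliverables of the blocks G and A of the wall. -/
theorem dsResult_of_blocks (hIg : Fermat.Agent.S48WG.IgusaOneStatement)
    (hGR : ∀ (M : ℕ) [NeZero M], (4 ∣ M ∨ 9 ∣ M) → Fermat.Agent.S48WG.GoodRedOne M)
    (hNP : ∀ (M : ℕ) [NeZero M], (4 ∣ M ∨ 9 ∣ M) → Fermat.Agent.S48WPort.NormProductOne M)
    (hE : ∀ (M : ℕ) [NeZero M], 5 ≤ M → Fermat.Agent.S48W.EigenclassOne M)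
    (N : ℕ) [NeZero N] (ε : DirichletCharacter ℂ N) (f : CuspForm (Gamma1 N) 1)
    (hf₁ : ModularFormClass.qCoeff f 1 = 1)
    (hT : ∀ p : ℕ, p.Prime → ¬ p ∣ N → ∀ n : ℕ,
        ModularFormClass.qCoeff f (p * n) +
            ε (p : ZMod N) * (if p ∣ n then ModularFormClass.qCoeff f (n / p) else 0) =
          ModularFormClass.qCoeff f p * ModularFormClass.qCoeff f n) :
    ∃ ρ : Γℚ →* GL (Fin 2) ℂ, GaloisFactorsThroughFiniteLevel ρ ∧
      (Deformation.matrixRepresentation ρ).IsIrreducible ∧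
      ∀ p : ℕ, p.Prime → ¬ p ∣ N →
        ∀ A : ValuationSubring (AlgebraicClosure ℚ), A.LiesOverPrime p →
          (∀ σ ∈ A.inertiaSubgroupIn ℚ, ρ σ = 1) ∧
          ∀ σ : Γℚ, A.IsFrobeniusAt σ p →
            ((ρ σ : GL (Fin 2) ℂ) : Matrix (Fin 2) (Fin 2) ℂ).trace = ModularFormClass.qCoeff f p ∧
            ((ρ σ : GL (Fin 2) ℂ) : Matrix (Fin 2) (Fin 2) ℂ).det = ε (p : ZMod N) :=
  dsResult_of_leavesW hIg hGR hNP
    (fun M _ ℓ hℓ h1 h2 => Fermat.Agent.S48W.eigenclassOneAt_of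
      (hE M (h1.trans (Nat.le_of_dvd (Nat.pos_of_ne_zero (NeZero.ne M)) h2))) hℓ)
    N ε f hf₁ hT

end Fermat.Agent.S48
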