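import Fermat.Agent.S48.Wire4
import Fermat.Agent.S48.W.A.Final
import Fermat.Agent.S48.W.G.Kron.Final

/-!
# S48 (Deligne–Serre): the frontier after block A (helper22)

`dsResult_of_d3` : the statement of S48 from
* `DictD3Primes M` (`5 ≤ M`): (D3) for the Hecke correspondences (block A2-D3), the only open input
  of block A (`S48WA.eigenclassOneAt_of_d3`);
* `IgusaOneStatement`, `GoodRedOne M`, `NormProductOne M` (levels with `4 ∣ M` or `9 ∣ M`): block G.

`dsResult_of_d3_goodRed` : the same with `NormProductOne` plugged in (`S48WKron.normProductOne`,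
helper37): the frontier is `DictD3Primes`, `IgusaOneStatement`, `GoodRedOne`.
-/

set_option autoImplicit false

open CongruenceSubgroup

namespace Fermat.Agent.S48

local notation "Γℚ" => (AlgebraicClosure ℚ ≃ₐ[ℚ] AlgebraicClosure ℚ)

/-- The statement of S48 from (D3) for the `T_p` and the deliverables of block G. -/
theorem dsResult_of_d3
    (hD3 : ∀ (M : ℕ) [NeZero M], 5 ≤ M → Fermat.Agent.S48WA.DictD3Primes M)
    (hIg : Fermat.Agent.S48WG.IgusaOneStatement)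
    (hGR : ∀ (M : ℕ) [NeZero M], (4 ∣ M ∨ 9 ∣ M) → Fermat.Agent.S48WG.GoodRedOne M)
    (hNP : ∀ (M : ℕ) [NeZero M], (4 ∣ M ∨ 9 ∣ M) → Fermat.Agent.S48WPort.NormProductOne M)
    (N : ℕ) [NeZero N] (ε : DirichletCharacter ℂ N) (f : CuspForm (Gamma1 N) 1)
    (hf₁ : ModularFormClass.qCoeff f 1 = 1)
    (hT : ∀ p : ℕ, p.Prime → ¬ p ∣ N → ∀ n : ℕ,
        ModularFormClass.qCoeff f (p * n) +
            ε (p : ZMod N) * (if p ∣ n then ModularFormClass.qCoeff f (n / p) else 0) =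
          ModularFormClass.qCoeff f p * ModularFormClass.qCoeff f n) :
    ∃ ρ : Γℚ →* GL (Fin 2) ℂ, GaloisFactorsThroughFiniteLevel ρ ∧
      (Deformation.matrixRepresentation ρ).IsIrreducible ∧
      ∀ p : ℕ, p.Prime → ¬ p ∣ N →
        ∀ A : ValuationSubring (AlgebraicClosure ℚ), A.LiesOverPrime p →
          (∀ σ ∈ A.inertiaSubgroupIn ℚ, ρ σ = 1) ∧
          ∀ σ : Γℚ, A.IsFrobeniusAt σ p →
            ((ρ σ : GL (Fin 2) ℂ) : Matrix (Fin 2) (Fin 2) ℂ).trace = ModularFormClass.qCoeff f p ∧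
            ((ρ σ : GL (Fin 2) ℂ) : Matrix (Fin 2) (Fin 2) ℂ).det = ε (p : ZMod N) :=
  dsResult_of_leavesW hIg hGR hNP (Fermat.Agent.S48WA.eigenclassOneAt_of_d3 hD3) N ε f hf₁ hT

/-- The statement of S48 from (D3) for the `T_p`, `IgusaOneStatement` and `GoodRedOne`. -/
theorem dsResult_of_d3_goodRed
    (hD3 : ∀ (M : ℕ) [NeZero M], 5 ≤ M → Fermat.Agent.S48WA.DictD3Primes M)
    (hIg : Fermat.Agent.S48WG.IgusaOneStatement)
    (hGR : ∀ (M : ℕ) [NeZero M], (4 ∣ M ∨ 9 ∣ M) → Fermat.Agent.S48WG.GoodRedOne M)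
    (N : ℕ) [NeZero N] (ε : DirichletCharacter ℂ N) (f : CuspForm (Gamma1 N) 1)
    (hf₁ : ModularFormClass.qCoeff f 1 = 1)
    (hT : ∀ p : ℕ, p.Prime → ¬ p ∣ N → ∀ n : ℕ,
        ModularFormClass.qCoeff f (p * n) +
            ε (p : ZMod N) * (if p ∣ n then ModularFormClass.qCoeff f (n / p) else 0) =
          ModularFormClass.qCoeff f p * ModularFormClass.qCoeff f n) :
    ∃ ρ : Γℚ →* GL (Fin 2) ℂ, GaloisFactorsThroughFiniteLevel ρ ∧
      (Deformation.matrixRepresentation ρ).IsIrreducible ∧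
      ∀ p : ℕ, p.Prime → ¬ p ∣ N →
        ∀ A : ValuationSubring (AlgebraicClosure ℚ), A.LiesOverPrime p →
          (∀ σ ∈ A.inertiaSubgroupIn ℚ, ρ σ = 1) ∧
          ∀ σ : Γℚ, A.IsFrobeniusAt σ p →
            ((ρ σ : GL (Fin 2) ℂ) : Matrix (Fin 2) (Fin 2) ℂ).trace = ModularFormClass.qCoeff f p ∧
            ((ρ σ : GL (Fin 2) ℂ) : Matrix (Fin 2) (Fin 2) ℂ).det = ε (p : ZMod N) :=
  dsResult_of_d3 hD3 hIg hGR (fun M _ _ => Fermat.Agent.S48WKron.normProductOne M) N ε f hf₁ hT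

end Fermat.Agent.S48
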