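import Fermat.Agent.S48.Wire5
import Fermat.Agent.S48.W.A.Dict.D3Final
import Fermat.Agent.S48.W.G.Red.Igusa.Final
import Fermat.Agent.S48.W.G.Red.Igusa.Deg0

/-!
# S48 (Deligne–Serre): the frontier is G-23 (helper22)

Block A is closed (`dictD3One_main`, helper78), G-IGUSA is closed (`igDeg0`, helper1;
`goodRedOneFive_of_deg0`, helper59), Kronecker is closed (`normProductOne`, helper37).
What is left is the good reduction input of `X₁(M)` at the primes `2` and `3`:

* `GoodRedTwoThree` : `RedInput A (FOne M)` at the places over `p = 3` when `4 ∣ M`, and at the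
  places over `p = 2` when `9 ∣ M` (`p ∤ M`);
* `goodRedOne_of_twoThree` : `GoodRedOne M` at the levels with `4 ∣ M` or `9 ∣ M`;
* `dsResult_of_twoThree : GoodRedTwoThree → [statement of S48]`.
-/

set_option autoImplicit false

open CongruenceSubgroup

namespace Fermat.Agent.S48

local notation "Γℚ" => (AlgebraicClosure ℚ ≃ₐ[ℚ] AlgebraicClosure ℚ)

/-- **(G-23)** the good reduction input of `X₁(M)` at `3` (if `4 ∣ M`) and at `2` (if `9 ∣ M`). -/
def GoodRedTwoThree : Prop :=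
  ∀ (M : ℕ) [NeZero M] (p : ℕ), p.Prime → ¬ p ∣ M →
    ((p = 3 ∧ 4 ∣ M) ∨ (p = 2 ∧ 9 ∣ M)) →
    ∀ A : ValuationSubring (AlgebraicClosure ℚ), A.LiesOverPrime p →
      Fermat.Agent.S48WG.RedInput A (Fermat.Agent.S48W.FOne M)

/-- (D3) for the Hecke correspondences (block A2-D3, closed). -/
theorem dictD3Primes_main (M : ℕ) [NeZero M] (hM : 5 ≤ M) :
    Fermat.Agent.S48WA.DictD3Primes M := fun p hpM =>
  haveI : NeZero (p : ℕ) := ⟨p.2.ne_zero⟩
  Fermat.Agent.S48WA2.dictD3One_main M (p : ℕ) (by omega) p.2 hpM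

/-- `GoodRedOne M` at the levels of the gluing, from the input at `2` and `3`. -/
theorem goodRedOne_of_twoThree (h : GoodRedTwoThree) (M : ℕ) [NeZero M]
    (h49 : 4 ∣ M ∨ 9 ∣ M) : Fermat.Agent.S48WG.GoodRedOne M := by
  intro p hp hpM A hA
  have hM0 : 0 < M := Nat.pos_of_ne_zero (NeZero.ne M)
  have hM2 : 2 ≤ M := by
    rcases h49 with h4 | h9
    · have := Nat.le_of_dvd hM0 h4; omega
    · have := Nat.le_of_dvd hM0 h9; omega
  rcases Nat.lt_or_ge p 5 with hlt | hge
  · -- `p = 2` or `p = 3`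
    have hp23 : p = 2 ∨ p = 3 := by
      have h2 := hp.two_le
      have h4 : p ≠ 4 := by
        rintro rfl
        exact absurd hp (by decide)
      omega
    rcases hp23 with rfl | rfl
    · -- `p = 2`: then `4 ∤ M`, so `9 ∣ M`
      rcases h49 with h4 | h9
      · exact absurd (Dvd.dvd.trans (by norm_num : (2 : ℕ) ∣ 4) h4) hpM
      · exact h M 2 hp hpM (Or.inr ⟨rfl, h9⟩) A hA
    · -- `p = 3`: then `9 ∤ M`, so `4 ∣ M`
      rcases h49 with h4 | h9
      · exact h M 3 hp hpM (Or.inl ⟨rfl, h4⟩) A hA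
      · exact absurd (Dvd.dvd.trans (by norm_num : (3 : ℕ) ∣ 9) h9) hpM
  · exact Fermat.Agent.S48WG.goodRedOneFive_of_deg0 Fermat.Agent.S48WG.igDeg0 M hM2 p hp hge hpM
      A hA

/-- **The statement of S48 from the good reduction input at `2` and `3`** (G-23). -/
theorem dsResult_of_twoThree (h : GoodRedTwoThree)
    (N : ℕ) [NeZero N] (ε : DirichletCharacter ℂ N) (f : CuspForm (Gamma1 N) 1)
    (hf₁ : ModularFormClass.qCoeff f 1 = 1)
    (hT : ∀ p : ℕ, p.Prime → ¬ p ∣ N → ∀ n : ℕ,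
        ModularFormClass.qCoeff f (p * n) +
            ε (p : ZMod N) * (if p ∣ n then ModularFormClass.qCoeff f (n / p) else 0) =
          ModularFormClass.qCoeff f p * ModularFormClass.qCoeff f n) :
    ∃ ρ : Γℚ →* GL (Fin 2) ℂ, GaloisFactorsThroughFiniteLevel ρ ∧
      (Deformation.matrixRepresentation ρ).IsIrreducible ∧
      ∀ p : ℕ, p.Prime → ¬ p ∣ N →
        ∀ A : ValuationSubring (AlgebraicClosure ℚ), A.LiesOverPrime p →
          (∀ σ ∈ A.inertiaSubgroupIn ℚ, ρ σ = 1) ∧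
          ∀ σ : Γℚ, A.IsFrobeniusAt σ p →
            ((ρ σ : GL (Fin 2) ℂ) : Matrix (Fin 2) (Fin 2) ℂ).trace = ModularFormClass.qCoeff f p ∧
            ((ρ σ : GL (Fin 2) ℂ) : Matrix (Fin 2) (Fin 2) ℂ).det = ε (p : ZMod N) :=
  dsResult_of_d3_goodRed (fun M _ hM => dictD3Primes_main M hM)
    (Fermat.Agent.S48WG.igusaOne_of_deg0 Fermat.Agent.S48WG.igDeg0)
    (fun M _ h49 => goodRedOne_of_twoThree h M h49) N ε f hf₁ hT

end Fermat.Agent.S48
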