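import Fermat.Agent.S48.Wire6
import Fermat.Agent.S48.W.G.P23.Final
import Fermat.Agent.S48.W.G.Red.Branch.EllOne

/-!
# S48 (Deligne–Serre): the frontier is FRICKE (helper22)

`dsResult_of_fricke : FrickeBaseStatement 4 → FrickeBaseStatement 9 → [statement of S48]`
(G-23 final assembly of helper94, `S48WG23.goodRedOne23`; G-IGUSA `igusaOne_of_deg0 igDeg0`;
G-BRANCH `branchOne`; ELL `ellOne`).
-/

set_option autoImplicit false

open CongruenceSubgroup

namespace Fermat.Agent.S48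

local notation "Γℚ" => (AlgebraicClosure ℚ ≃ₐ[ℚ] AlgebraicClosure ℚ)

/-- (ELL) in the form of `P23/Final.lean`. -/
theorem ellOne23 : Fermat.Agent.S48WG23.EllOneStatement :=
  fun M _ hM x hx => Fermat.Agent.S48WG.ellOne M hM x hx

/-- **(G-23)** from the embedding of the genus-`0` bases of levels `4` and `9`. -/
theorem goodRedTwoThree_of_fricke (hFr4 : Fermat.Agent.S48WG23.FrickeBaseStatement 4)
    (hFr9 : Fermat.Agent.S48WG23.FrickeBaseStatement 9) : GoodRedTwoThree := by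
  intro M _ p hp hpM h A hA
  rcases h with ⟨rfl, h4⟩ | ⟨rfl, h9⟩
  · exact Fermat.Agent.S48WG23.goodRedOne23
      (Fermat.Agent.S48WG.igusaOne_of_deg0 Fermat.Agent.S48WG.igDeg0)
      Fermat.Agent.S48WG.branchOne ellOne23 4 (Or.inl rfl) hFr4 M h4 hp hpM hA
  · exact Fermat.Agent.S48WG23.goodRedOne23
      (Fermat.Agent.S48WG.igusaOne_of_deg0 Fermat.Agent.S48WG.igDeg0)
      Fermat.Agent.S48WG.branchOne ellOne23 9 (Or.inr rfl) hFr9 M h9 hp hpM hA

/-- **The statement of S48 from FRICKE** (the last open leaf of the wall). -/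
theorem dsResult_of_fricke (hFr4 : Fermat.Agent.S48WG23.FrickeBaseStatement 4)
    (hFr9 : Fermat.Agent.S48WG23.FrickeBaseStatement 9)
    (N : ℕ) [NeZero N] (ε : DirichletCharacter ℂ N) (f : CuspForm (Gamma1 N) 1)
    (hf₁ : ModularFormClass.qCoeff f 1 = 1)
    (hT : ∀ p : ℕ, p.Prime → ¬ p ∣ N → ∀ n : ℕ,
        ModularFormClass.qCoeff f (p * n) +
            ε (p : ZMod N) * (if p ∣ n then ModularFormClass.qCoeff f (n / p) else 0) =
          ModularFormClass.qCoeff f p * ModularFormClass.qCoeff f n) :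
    ∃ ρ : Γℚ →* GL (Fin 2) ℂ, GaloisFactorsThroughFiniteLevel ρ ∧
      (Deformation.matrixRepresentation ρ).IsIrreducible ∧
      ∀ p : ℕ, p.Prime → ¬ p ∣ N →
        ∀ A : ValuationSubring (AlgebraicClosure ℚ), A.LiesOverPrime p →
          (∀ σ ∈ A.inertiaSubgroupIn ℚ, ρ σ = 1) ∧
          ∀ σ : Γℚ, A.IsFrobeniusAt σ p →
            ((ρ σ : GL (Fin 2) ℂ) : Matrix (Fin 2) (Fin 2) ℂ).trace = ModularFormClass.qCoeff f p ∧
            ((ρ σ : GL (Fin 2) ℂ) : Matrix (Fin 2) (Fin 2) ℂ).det = ε (p : ZMod N) :=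
  dsResult_of_twoThree (goodRedTwoThree_of_fricke hFr4 hFr9) N ε f hf₁ hT

end Fermat.Agent.S48
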